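import Fermat.Agent.WaringGoldbach.Main
import Fermat.Agent.WaringAlmostAll.MeanSquare

/-!
# The major arcs for all `N ≤ X` on one grid

For the grid of `X` and the arcs `q ≤ R = (log P) ^ K`, `|α - a/q| ≤ R/X`, the weighted number of
representations of every `N ≤ X` is `J (N) ∑_{q ≤ R} A_q (N)` and the sum over the minor arcs, up
to `O (X ^ (s/k - 1) / log P)`.
-/

set_option autoImplicit false

noncomputable section

namespace FA.WaringGoldbachAlmostAll

open Finset FA.WaringGoldbach ArithmeticFunction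
open FA.ThreePrimes hiding mainTerm singularSeries singularTerm
open FA.WaringAsymptotic (rootFloor weightSum weightConv weight)
open FA.WaringAlmostAll (boxTerm)
open scoped Real

/-- The summand on the grid of `X`, for the number `N`. -/
def primeBox (k s X M N h : ℕ) : ℂ :=
  powTwist k ((h : ℝ) / M) Λ (rootFloor k X) ^ s * eAdd (-((N : ℝ) * ((h : ℝ) / M)))

/-- The grid points off the major arcs. -/
def primeMinor (k K X M : ℕ) : Finset ℕ :=
  range M \ (arcCentres ⌊Real.log (rootFloor k X) ^ K⌋₊).biUnion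
    (arc M (Real.log (rootFloor k X) ^ K / X))

theorem sum_grid_primeBox {k s X M N : ℕ} (hk : 1 ≤ k) (hs : 2 ≤ s) (hN : 1 ≤ N) (hNX : N ≤ X)
    (hM : M = s * X) : ∑ h ∈ range M, primeBox k s X M N h = (M : ℂ) * primeRep k s Λ N := by
  have hX : 1 ≤ X := hN.trans hNX
  obtain ⟨-, hPX, hXP⟩ := WaringAsymptotic.rootFloor_spec hk hX
  obtain ⟨P, hP⟩ : ∃ P, P = rootFloor k X := ⟨_, rfl⟩
  rw [← hP] at hPX hXP
  have h2 : 2 * X ≤ M := hM ▸ Nat.mul_le_mul_right X hs
  have e : ∀ x : ℝ, powTwist k x Λ P =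
      ∑ i ∈ Ioc 0 P, (Λ i : ℂ) * eAdd ((i ^ k : ℕ) * x) := fun x => by
    rw [powTwist]
    refine sum_congr rfl fun i _ => ?_
    rw [mul_comm x]
    push_cast
    rfl
  have hg := WaringAsymptotic.sum_pow_grid (Ioc 0 P) (fun n => (Λ n : ℂ)) (fun n => n ^ k) (s := s)
    (N := N) (M := M) (B := P ^ k) (fun i hi => Nat.pow_le_pow_left (mem_Ioc.1 hi).2 k)
    (by have := Nat.mul_le_mul_left s hPX; omega) (by omega) 0
  simp only [add_zero] at hg
  simp only [primeBox, ← hP, e]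
  rw [hg, primeRep, Complex.ofReal_sum]
  congr 1
  refine sum_congr (ext fun z => ?_) fun z _ => by push_cast; rfl
  simp only [mem_filter, Fintype.mem_piFinset, mem_Icc, mem_Ioc]
  refine ⟨fun h => ⟨fun i => ⟨(h.1 i).1, ?_⟩, h.2⟩, fun h => ⟨fun i => ⟨(h.1 i).1, ?_⟩, h.2⟩⟩
  · have h4 := single_le_sum (f := fun j => z j ^ k) (fun j _ => Nat.zero_le _) (mem_univ i)
    exact (Nat.le_self_pow (by omega) _).trans (h4.trans h.2.le)
  · by_contra hlt
    have h3 := Nat.pow_le_pow_left (show P + 1 ≤ z i by omega) k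
    have h4 := single_le_sum (f := fun j => z j ^ k) (fun j _ => Nat.zero_le _) (mem_univ i)
    have h5 := h.2
    omega

/-- **The major arcs** for every `N ≤ X`. -/
theorem exists_prime_major_rest {k n : ℕ} (hk : 2 ≤ k) (hn : 2 * k ≤ n + 1) (hn6 : 6 ≤ n + 1)
    {K : ℕ} (hK : 2 ≤ K) : ∃ (X₀ : ℕ) (C : ℝ), 0 < C ∧
    ∀ X M N : ℕ, X₀ ≤ X → M = (n + 1) * X → 1 ≤ N → N ≤ X →
      1 ≤ Real.log (rootFloor k X) ∧
      ‖(primeRep k (n + 1) Λ N : ℂ) - (weightConv (1 / (k : ℝ)) (n + 1) N : ℂ) *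
          ∑ q ∈ Icc 1 ⌊Real.log (rootFloor k X) ^ K⌋₊, primeTerm k (n + 1) N q -
          (∑ h ∈ primeMinor k K X M, primeBox k (n + 1) X M N h) / M‖ ≤
        C * ((X : ℝ) ^ (((n + 1 : ℕ) : ℝ) / k - 1) / Real.log (rootFloor k X)) := by
  obtain ⟨C₂, hC₂, hmaj⟩ := exists_pow_major (show 1 ≤ k by omega) K (4 * K + 2)
  obtain ⟨K₀, hK₀, hpow⟩ := exists_log_pow_le (max (4 * K + 2) (3 * K))
  obtain ⟨s, hs⟩ : ∃ s, s = n + 1 := ⟨_, rfl⟩
  rw [← hs] at hn hn6 ⊢
  obtain ⟨Z₀, hZ₀⟩ : ∃ Z₀ : ℝ, Z₀ = ∑' q, primeAbs k s q := ⟨_, rfl⟩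
  have hZ₀0 : 0 ≤ Z₀ := hZ₀ ▸ tsum_nonneg (primeAbs_nonneg k s)
  obtain ⟨T₀, hT₀⟩ : ∃ T₀ : ℕ,
      T₀ = max ⌈(2 * K₀ + 1) ^ 2⌉₊ ⌈Real.exp 4⌉₊ := ⟨_, rfl⟩
  obtain ⟨cl, hcl⟩ : ∃ cl : ℝ, cl = 1 + s + 2 * k := ⟨_, rfl⟩
  obtain ⟨cA, hcA⟩ : ∃ cA : ℝ, cA = 5 + 4 * s * cl := ⟨_, rfl⟩
  have hcl1 : 1 ≤ cl := by
    rw [hcl]
    linarith [(Nat.cast_nonneg s : (0 : ℝ) ≤ s), (Nat.cast_nonneg k : (0 : ℝ) ≤ k)]
  obtain ⟨Y, hY⟩ : ∃ Y : ℝ, Y = (s : ℝ) / k - 1 := ⟨_, rfl⟩
  have hk0 : (0 : ℝ) < k := by exact_mod_cast (show 0 < k by omega)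
  have hk1 : 1 / (k : ℝ) ≤ 1 := by
    rw [div_le_one hk0]; exact_mod_cast (show 1 ≤ k by omega)
  have hY1 : 1 ≤ Y := by
    rw [hY, le_sub_iff_add_le, le_div_iff₀ hk0]
    exact_mod_cast (show (1 + 1) * k ≤ s by omega)
  refine ⟨(T₀ + 1) ^ k, cA * (s * 6 ^ n * 9 * (C₂ + 2 * K₀)) + Z₀ * (3 ^ s * 2 * (5 + 2 * cl)),
    by rw [hcA]; positivity, fun X M N hX hM hN hNX => ?_⟩
  have hX1 : 1 ≤ X := le_trans (Nat.one_le_pow _ _ (by omega)) hX
  obtain ⟨P, hP⟩ : ∃ P, P = rootFloor k X := ⟨_, rfl⟩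
  have hPX : P ^ k ≤ X := hP ▸ (WaringAsymptotic.rootFloor_spec (by omega) hX1).2.1
  have hXP : X < (P + 1) ^ k := hP ▸ (WaringAsymptotic.rootFloor_spec (by omega) hX1).2.2
  have hTP : T₀ + 1 ≤ P := by
    by_contra h
    have := Nat.pow_le_pow_left (show P + 1 ≤ T₀ + 1 by omega) k
    omega
  rw [← hP]
  obtain ⟨l, hl⟩ : ∃ l, l = Real.log P := ⟨_, rfl⟩
  have hP1 : (1 : ℝ) ≤ P := by exact_mod_cast (show 1 ≤ P by omega)
  have hl4 : 4 ≤ l := by
    rw [hl, Real.le_log_iff_exp_le (by linarith)]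
    refine (Nat.le_ceil _).trans (Nat.cast_le.2 (le_trans ?_ hTP))
    rw [hT₀]
    exact le_trans (le_max_right _ _) (Nat.le_succ _)
  have hl1 : 1 ≤ l := by linarith
  rw [← hl]
  refine ⟨hl1, ?_⟩
  have hl0 : 0 < l := by linarith
  have hP2 : 2 ≤ P := by
    by_contra h
    interval_cases P <;> simp at hl <;> linarith
  have hX0 : (0 : ℝ) < X := Nat.cast_pos.2 hX1
  have hX2P : (X : ℝ) ≤ (2 * (P : ℝ)) ^ k := by
    exact_mod_cast hXP.le.trans (Nat.pow_le_pow_left (show P + 1 ≤ 2 * P by omega) k)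
  have hPXr : (P : ℝ) ^ k ≤ X := by exact_mod_cast hPX
  have hsPK : 2 * K₀ + 1 ≤ √(P : ℝ) := by
    refine Real.le_sqrt_of_sq_le ((Nat.le_ceil _).trans (Nat.cast_le.2 (le_trans ?_ hTP)))
    rw [hT₀]
    exact le_trans (le_max_left _ _) (Nat.le_succ _)
  have hsP : √(P : ℝ) ≤ P := by
    rw [Real.sqrt_le_left (by linarith)]
    nlinarith
  have hlpow : ∀ m, m ≤ max (4 * K + 2) (3 * K) → l ^ m ≤ K₀ * √(P : ℝ) := fun m hm =>
    (pow_le_pow_right₀ hl1 hm).trans (hl ▸ hpow P hP1)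
  obtain ⟨R, hR⟩ : ∃ R, R = l ^ K := ⟨_, rfl⟩
  have hR1 : 1 ≤ R := hR ▸ one_le_pow₀ hl1
  obtain ⟨Q, hQ⟩ : ∃ Q, Q = ⌊R⌋₊ := ⟨_, rfl⟩
  have hQR : (Q : ℝ) ≤ R := hQ ▸ Nat.floor_le (by linarith)
  rw [← hR, ← hQ, ← hY]
  have : NeZero M := ⟨by rw [hM]; exact Nat.mul_ne_zero (by omega) (by omega)⟩
  have hMr : (M : ℝ) = s * X := by rw [hM]; push_cast; ring
  have hM0 : (0 : ℝ) < M := Nat.cast_pos.2 (NeZero.pos M)
  have hXM : (X : ℝ) ≤ M :=
    Nat.cast_le.2 (hM ▸ Nat.le_mul_of_pos_left X (show 0 < s by omega))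
  obtain ⟨δ, hδ⟩ : ∃ δ, δ = R / (X : ℝ) := ⟨_, rfl⟩
  have hδ0 : 0 < δ := by rw [hδ]; positivity
  have hlogM : 1 + Real.log M ≤ cl * l := by
    have hs0 : (0 : ℝ) < s := by exact_mod_cast (show 0 < s by omega)
    have h2 := Real.log_le_log hM0 (hMr.le.trans (mul_le_mul_of_nonneg_left hX2P hs0.le))
    rw [Real.log_mul hs0.ne' (by positivity), Real.log_pow, Real.log_mul two_ne_zero (by linarith),
      ← hl] at h2
    have h3 := Real.log_le_self hs0.le
    have h4 := mul_le_mul_of_nonneg_left (show Real.log 2 + l ≤ 2 * l by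
      linarith [Real.log_two_lt_d9]) hk0.le
    have h5 := mul_le_mul_of_nonneg_left hl1 (show (0 : ℝ) ≤ 1 + s by positivity)
    rw [hcl]
    linarith
  obtain ⟨D, hD⟩ : ∃ D, D = (X : ℝ) ^ Y / l := ⟨_, rfl⟩
  rw [← hD]
  have hD0 : 0 ≤ D := by rw [hD]; positivity
  have hPs : (P : ℝ) ^ s / (P : ℝ) ^ k ≤ (X : ℝ) ^ Y := by
    refine le_trans (le_of_eq ?_) (WaringAsymptotic.pow_root_le (by linarith) hPX)
    rw [← Real.rpow_natCast (P : ℝ) s, ← Real.rpow_natCast (P : ℝ) k,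
      ← Real.rpow_sub (by linarith), hY]
    congr 1
    field_simp
  obtain ⟨F, hF⟩ : ∃ F : ℕ → ℂ, F = primeBox k s X M N := ⟨_, rfl⟩
  rw [← hF]
  obtain ⟨G, hG⟩ : ∃ G : (Σ _ : ℕ, ℕ) → ℕ → ℂ, G = fun z (h : ℕ) =>
      boxTerm k s X N ((h : ℝ) / M + -centre z) := ⟨_, rfl⟩
  have hminor : primeMinor k K X M = range M \ (arcCentres Q).biUnion (arc M δ) := by
    rw [primeMinor, ← hP, ← hl, ← hR, ← hQ, ← hδ]
  rw [hminor]
  have hΛ0 : ∀ m : ℕ, 0 ≤ Λ m := fun m => vonMangoldt_nonneg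
  -- the arcs
  have p3 : ‖∑ z ∈ arcCentres Q, ∑ h ∈ arc M δ z, (F h - arcFactor k s N z * G z h)‖ ≤
      M * (cA * (s * 6 ^ n * 9 * (C₂ + 2 * K₀)) * D) := by
    have hone : ∀ z ∈ arcCentres Q, ∀ h ∈ arc M δ z, ‖F h - arcFactor k s N z * G z h‖ ≤
        s * (6 * (P : ℝ)) ^ n * ((C₂ + 2 * K₀) * (P / l ^ (4 * K + 2)) * (9 * R)) := by
      intro z hz h hh
      obtain ⟨q, r⟩ := z
      obtain ⟨⟨hq, hqQ⟩, -, -⟩ := mem_arcCentres.1 hz
      simp only at hq hqQ
      have : NeZero q := ⟨by omega⟩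
      have hqR' : (q : ℝ) ≤ l ^ K := hR ▸ (Nat.cast_le.2 hqQ).trans hQR
      rw [arc, mem_filter, nearDist] at hh
      obtain ⟨j, hj⟩ : ∃ j, j = round ((h : ℝ) / M - centre ⟨q, r⟩) := ⟨_, rfl⟩
      obtain ⟨β, hβ⟩ : ∃ β, β = (h : ℝ) / M - centre ⟨q, r⟩ - j := ⟨_, rfl⟩
      rw [← hj, ← hβ] at hh
      have hq0 : (q : ℝ) ≠ 0 := Nat.cast_ne_zero.2 (by omega)
      have hα : powTwist k ((h : ℝ) / M) Λ P =
          powTwist k (((r : ℤ) : ℝ) / (q : ℝ) + β) Λ P := by
        refine sum_congr rfl fun x _ => congrArg _ ?_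
        rw [← eAdd_add_intCast _ (-(j * (x : ℤ) ^ k)), hβ, centre]
        push_cast
        ring_nf
      have happ := hmaj X P q (r : ℤ) β hP2 hPX hXP (hl ▸ hqR')
      rw [← hα, ← hl] at happ
      rw [hF, hG, arcFactor, primeBox, ← hP]
      simp only [boxTerm]
      rw [← sub_eq_add_neg, ← WaringAsymptotic.weightSum_sub_intCast _ X _ j, ← hβ]
      have e : eAdd (-((N : ℝ) * centre ⟨q, r⟩)) *
          eAdd (-(N * ((h : ℝ) / M - centre ⟨q, r⟩))) = eAdd (-((N : ℝ) * ((h : ℝ) / M))) := by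
        rw [← eAdd_add]
        ring_nf
      rw [mul_mul_mul_comm, e, ← sub_mul, norm_mul, norm_eAdd, mul_one, ← mul_pow]
      have hS : ‖powTwist k ((h : ℝ) / M) Λ P‖ ≤ 6 * P :=
        norm_powTwist_le hΛ0 (fun _ => le_rfl) _ P
      have hV : ‖unitFactor k q r * weightSum (1 / (k : ℝ)) X β‖ ≤ 6 * P := by
        rw [norm_mul]
        refine (mul_le_of_le_one_left (norm_nonneg _) (norm_unitFactor_le_one _ _ _)).trans
          ((WaringAsymptotic.norm_weightSum_le (by positivity) hk1 X β).trans ?_)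
        rw [one_div, Real.rpow_inv_le_iff_of_pos (Nat.cast_nonneg _) (by positivity) hk0,
          Real.rpow_natCast]
        exact hX2P.trans (pow_le_pow_left₀ (by positivity) (by linarith) k)
      rw [hs]
      refine (WaringAsymptotic.norm_pow_sub_pow_le hS hV n).trans ?_
      refine mul_le_mul_of_nonneg_left (happ.trans ?_) (by positivity)
      refine mul_le_mul ?_ ?_ (by positivity) (by positivity)
      · rw [add_mul]
        refine add_le_add le_rfl ?_
        rw [mul_assoc, le_mul_iff_one_le_right two_pos, mul_div_assoc',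
          one_le_div (by positivity)]
        exact (hlpow _ (le_max_left _ _)).trans (mul_le_mul_of_nonneg_left hsP hK₀.le)
      · have h1 : |β| * X ≤ R := by
          rw [← le_div_iff₀ hX0, ← hδ]
          exact hh.2
        have := mul_le_mul_of_nonneg_left h1 (show (0 : ℝ) ≤ 2 * π by positivity)
        have := mul_le_mul_of_nonneg_right Real.pi_le_four (show (0 : ℝ) ≤ R by linarith)
        linarith
    refine (norm_sum_le _ _).trans ((sum_le_card_nsmul _ _ (cA * (R * l) *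
      (s * (6 * (P : ℝ)) ^ n * ((C₂ + 2 * K₀) * (P / l ^ (4 * K + 2)) * (9 * R))))
      fun z hz => ?_).trans ?_)
    · refine (norm_sum_le _ _).trans ((sum_le_card_nsmul _ _ _ (hone z hz)).trans ?_)
      rw [nsmul_eq_mul]
      refine mul_le_mul_of_nonneg_right ((card_arc_le hδ0 z).trans ?_) (by positivity)
      have hMd : 4 * (M : ℝ) * δ = 4 * s * R := by rw [hMr, hδ]; field_simp
      rw [hMd]
      have := mul_le_mul_of_nonneg_left hlogM (show 0 ≤ 4 * (s : ℝ) * R by positivity)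
      have : 1 ≤ R * l := one_le_mul_of_one_le_of_one_le hR1 hl1
      rw [hcA]
      linarith
    · rw [nsmul_eq_mul]
      have hcard : ((arcCentres Q).card : ℝ) ≤ R * R := by
        have h1 : (arcCentres Q).card ≤ Q * Q := by
          rw [arcCentres, card_sigma]
          refine (sum_le_card_nsmul _ _ Q fun q hq => ?_).trans (le_of_eq ?_)
          · rw [card_unitResidues]
            exact (Nat.totient_le q).trans (mem_Icc.1 hq).2
          · simp
        refine (Nat.cast_le.2 h1).trans ?_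
        push_cast
        exact mul_le_mul hQR hQR (Nat.cast_nonneg _) (by linarith)
      refine (mul_le_mul_of_nonneg_right hcard (by rw [hcA]; positivity)).trans ?_
      rw [hD, hR, show l ^ (4 * K + 2) = (l ^ K) ^ 4 * l * l by
        rw [← pow_mul, mul_assoc, ← sq, ← pow_add, mul_comm K 4]]
      calc l ^ K * l ^ K * (cA * (l ^ K * l) * (s * (6 * (P : ℝ)) ^ n *
            ((C₂ + 2 * K₀) * (P / ((l ^ K) ^ 4 * l * l)) * (9 * l ^ K))))
          = cA * (s * 6 ^ n * 9 * (C₂ + 2 * K₀)) *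
              ((P : ℝ) ^ k * (((P : ℝ) ^ (n + 1) / (P : ℝ) ^ k) / l)) := by
            rw [mul_pow, pow_succ (P : ℝ) n]; field_simp
        _ ≤ cA * (s * 6 ^ n * 9 * (C₂ + 2 * K₀)) *
              ((M : ℝ) * ((X : ℝ) ^ Y / l)) := by
            rw [← hs]
            refine mul_le_mul_of_nonneg_left ?_ (by rw [hcA]; positivity)
            exact mul_le_mul (hPXr.trans hXM) (div_le_div_of_nonneg_right hPs hl0.le)
              (by positivity) hM0.le
        _ = _ := by ring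
  -- off the arcs
  have p5 : ‖∑ z ∈ arcCentres Q, arcFactor k s N z * ∑ h ∈ range M \ arc M δ z, G z h‖ ≤
      M * (Z₀ * (3 ^ s * 2 * (5 + 2 * cl)) * D) := by
    have hoff : ∀ z ∈ arcCentres Q, ‖∑ h ∈ range M \ arc M δ z, G z h‖ ≤
        (M : ℝ) * (3 ^ s * 2 * (5 + 2 * cl) * D) := by
      intro z _
      obtain ⟨Z, hZ⟩ : ∃ Z, Z = 1 / (2 * δ) := ⟨_, rfl⟩
      have hZ0 : 0 < Z := by rw [hZ]; positivity
      refine (norm_sum_le _ _).trans ((sum_le_sum (g := fun h : ℕ =>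
        3 ^ s * δ ^ (-Y) * (2 * clip Z ((h : ℝ) / M - centre z))) fun h hh => ?_).trans
        ?_)
      · rw [mem_sdiff, arc, mem_filter, not_and, not_le] at hh
        have hd := hh.2 hh.1
        obtain ⟨d, hd'⟩ : ∃ d, d = nearDist ((h : ℝ) / M - centre z) := ⟨_, rfl⟩
        rw [← hd'] at hd
        have hd0 : 0 < d := hδ0.trans hd
        rw [hG]
        simp only [boxTerm]
        rw [← sub_eq_add_neg, norm_mul, norm_eAdd, mul_one, norm_pow]
        have h1 := WaringAsymptotic.norm_weightSum_le_inv (c := 1 / (k : ℝ)) (by positivity)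
          hk1 X (hd' ▸ hd0)
        rw [← hd'] at h1
        refine (pow_le_pow_left₀ (norm_nonneg _) h1 s).trans ?_
        have hclip : 2 * clip Z ((h : ℝ) / M - centre z) = d⁻¹ := by
          rw [clip, ← hd', if_neg hd0.ne', min_eq_right
            (hZ ▸ one_div_le_one_div_of_le (by positivity) (by linarith))]
          field_simp
        rw [hclip, mul_pow, ← Real.rpow_natCast (d ^ _) s, ← Real.rpow_mul hd0.le,
          show -(1 / (k : ℝ)) * s = -Y + -1 by rw [hY]; field_simp; ring, Real.rpow_add hd0,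
          Real.rpow_neg_one, ← mul_assoc]
        exact mul_le_mul_of_nonneg_right (mul_le_mul_of_nonneg_left
          (Real.rpow_le_rpow_of_nonpos hδ0 hd.le (by linarith)) (by positivity)) (by positivity)
      rw [← mul_sum, ← mul_sum]
      refine (mul_le_mul_of_nonneg_left (mul_le_mul_of_nonneg_left
        ((sum_le_sum_of_subset_of_nonneg sdiff_subset fun i _ _ => clip_nonneg hZ0.le _).trans
          (sum_clip_grid_le (centre z) hZ0.le)) two_pos.le) (by positivity)).trans ?_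
      have hZM : 5 * Z + 2 * M * (1 + Real.log M) ≤ (5 + 2 * cl) * M * l := by
        have h1 : Z ≤ (M : ℝ) * 1 := by
          rw [hZ, hδ, show 1 / (2 * (R / (X : ℝ))) = X / (2 * R) by field_simp,
            div_le_iff₀ (by positivity)]
          have := mul_le_mul_of_nonneg_left hR1 hM0.le
          linarith
        have h2 := mul_le_mul_of_nonneg_left hlogM (show 0 ≤ 2 * (M : ℝ) by positivity)
        have h3 := mul_le_mul_of_nonneg_left hl1 hM0.le
        linarith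
      have hsave : δ ^ (-Y) * l ≤ D := by
        rw [hδ, Real.rpow_neg (by positivity), Real.div_rpow (by linarith) hX0.le, hD, inv_div,
          le_div_iff₀ hl0, div_mul_eq_mul_div, div_mul_eq_mul_div, div_le_iff₀ (by positivity)]
        have h1 : l * l ≤ R ^ Y := by
          refine le_trans ?_ (Real.self_le_rpow_of_one_le hR1 hY1)
          rw [hR, ← sq]
          exact pow_le_pow_right₀ hl1 hK
        calc (X : ℝ) ^ Y * l * l = (X : ℝ) ^ Y * (l * l) := by ring
          _ ≤ (X : ℝ) ^ Y * R ^ Y := mul_le_mul_of_nonneg_left h1 (by positivity)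
      calc 3 ^ s * δ ^ (-Y) * (2 * (5 * Z + 2 * M * (1 + Real.log M)))
          ≤ 3 ^ s * δ ^ (-Y) * (2 * ((5 + 2 * cl) * M * l)) := by gcongr
        _ = 3 ^ s * 2 * (5 + 2 * cl) * M * (δ ^ (-Y) * l) := by ring
        _ ≤ 3 ^ s * 2 * (5 + 2 * cl) * M * D := mul_le_mul_of_nonneg_left hsave (by positivity)
        _ = _ := by ring
    refine (norm_sum_le _ _).trans ((sum_le_sum fun z hz => ?_).trans
      ((sum_mul _ _ ((M : ℝ) * (3 ^ s * 2 * (5 + 2 * cl) * D))).ge.trans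
        ((mul_le_mul_of_nonneg_right (sum_norm_arcFactor_le (k := k) (by omega) hn6 N Q)
          (mul_nonneg hM0.le (mul_nonneg (by positivity) hD0))).trans
          (le_of_eq (by rw [hZ₀]; ring)))))
    rw [norm_mul]
    exact mul_le_mul_of_nonneg_left (hoff z hz) (norm_nonneg _)
  -- the arcs are apart
  have hsep : ((arcCentres Q : Set (Σ _ : ℕ, ℕ))).PairwiseDisjoint (arc M δ) := by
    intro z hz w hw hne
    rw [Function.onFun, disjoint_left]
    intro x hx hx'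
    rw [arc, mem_filter] at hx hx'
    have h1 := inv_mul_le_nearDist_centre (mem_coe.1 hz) (mem_coe.1 hw) hne
    have h2 := nearDist_sub_sub_le (centre z) (centre w) ((x : ℝ) / M)
    have hQ0 : (0 : ℝ) < Q := by
      rw [hQ, Nat.cast_pos, Nat.floor_pos]
      exact hR1
    have h3 : 2 * δ < 1 / ((Q : ℝ) * Q) := by
      rw [hδ, mul_div_assoc', div_lt_div_iff₀ hX0 (by positivity), one_mul]
      calc 2 * R * ((Q : ℝ) * Q) ≤ 2 * (R * (R * R)) := by
            rw [mul_assoc]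
            gcongr
        _ ≤ 2 * (K₀ * √(P : ℝ)) := by
            refine mul_le_mul_of_nonneg_left (le_of_eq_of_le ?_
              (hlpow (3 * K) (le_max_right _ _))) zero_le_two
            rw [hR, ← pow_add, ← pow_add]
            congr 1
            omega
        _ < √(P : ℝ) * √(P : ℝ) := by
            have : 0 < √(P : ℝ) := Real.sqrt_pos.2 (by linarith)
            nlinarith
        _ = P := Real.mul_self_sqrt (by linarith)
        _ ≤ X := le_trans (le_self_pow₀ hP1 (by omega)) hPXr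
    linarith
  have hdecomp : ∑ h ∈ range M, F h =
      ∑ h ∈ range M \ (arcCentres Q).biUnion (arc M δ), F h +
        ∑ z ∈ arcCentres Q, ∑ h ∈ arc M δ z, F h := by
    rw [← sum_biUnion hsep, sum_sdiff]
    exact biUnion_subset.2 fun z _ => filter_subset _ _
  have hident : (M : ℂ) * primeRep k s Λ N -
      (M : ℂ) * weightConv (1 / (k : ℝ)) s N * ∑ z ∈ arcCentres Q, arcFactor k s N z -
      ∑ h ∈ range M \ (arcCentres Q).biUnion (arc M δ), F h =
      ∑ z ∈ arcCentres Q, ∑ h ∈ arc M δ z, (F h - arcFactor k s N z * G z h) -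
        ∑ z ∈ arcCentres Q, arcFactor k s N z * ∑ h ∈ range M \ arc M δ z, G z h := by
    have h1 : ∀ z ∈ arcCentres Q,
        (M : ℂ) * weightConv (1 / (k : ℝ)) s N * arcFactor k s N z =
          ∑ h ∈ arc M δ z, arcFactor k s N z * G z h +
            arcFactor k s N z * ∑ h ∈ range M \ arc M δ z, G z h := by
      intro z _
      rw [← mul_sum, ← mul_add, add_comm (∑ h ∈ arc M δ z, _), sum_sdiff
        (show arc M δ z ⊆ range M from filter_subset _ _),
        show ∑ h ∈ range M, G z h = (M : ℂ) * weightConv (1 / (k : ℝ)) s N by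
          rw [hG]; exact WaringAlmostAll.sum_grid_boxTerm (by omega) hN hNX hM _]
      ring
    rw [← sum_grid_primeBox (by omega) (by omega) hN hNX hM, mul_sum, sum_congr rfl h1,
      sum_add_distrib, ← hF, hdecomp]
    simp only [sum_sub_distrib]
    ring
  refine le_of_mul_le_mul_left ?_ hM0
  rw [← Complex.norm_natCast M, ← norm_mul, mul_sub, mul_sub, ← mul_assoc,
    mul_div_cancel₀ _ (Nat.cast_ne_zero.2 (NeZero.ne M)), ← sum_arcFactor, hident,
    Complex.norm_natCast]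
  refine (norm_sub_le _ _).trans ((add_le_add p3 p5).trans (le_of_eq ?_))
  ring

end FA.WaringGoldbachAlmostAll
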