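import Mathlib.Algebra.Group.Pointwise.Finset.Basic
import Mathlib.Data.ZMod.Basic
import Mathlib.Tactic

/-!
# Sums of elements of a group of units modulo `q`

For a finite group `H` of units modulo `q` with `h - 1` a unit for every `h ≠ 1` of it, every
residue is a sum of `i` elements of `H` as soon as `i ≥ 2 n`, `q - 1 ≤ n #H`: the sums are
invariant under `H`, so their numbers are `≡ 0, 1` modulo `#H`, and they increase until all
residues are reached.
-/

set_option autoImplicit false

noncomputable section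

namespace FA.WaringGoldbachAlmostAll

open Finset
open scoped Pointwise

/-- The sums of `i` elements of `H`. -/
def iterSums {q : ℕ} [NeZero q] (H : Finset (ZMod q)) : ℕ → Finset (ZMod q)
  | 0 => {0}
  | i + 1 => H + iterSums H i

theorem exists_of_mem_iterSums {q : ℕ} [NeZero q] {H : Finset (ZMod q)} :
    ∀ {i : ℕ} {n : ZMod q}, n ∈ iterSums H i →
      ∃ x : Fin i → ZMod q, (∀ l, x l ∈ H) ∧ ∑ l, x l = n
  | 0, n, hn => ⟨fun i => 0, fun i => i.elim0, by simpa [iterSums, eq_comm] using hn⟩
  | i + 1, n, hn => by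
    rw [iterSums, Finset.mem_add] at hn
    obtain ⟨a, ha, b, hb, rfl⟩ := hn
    obtain ⟨y, hy, rfl⟩ := exists_of_mem_iterSums hb
    exact ⟨Fin.cons a y, Fin.cases (by simpa using ha) (by simpa using hy),
      by simp [Fin.sum_univ_succ]⟩

/-- What is asked of the group. -/
structure IsUnitGroupMod {q : ℕ} (H : Finset (ZMod q)) : Prop where
  unit : ∀ h ∈ H, IsUnit h
  mul : ∀ a ∈ H, ∀ b ∈ H, a * b ∈ H
  sub_one : ∀ h ∈ H, h ≠ 1 → IsUnit (h - 1)
  nontrivial : ∃ c ∈ H, c ≠ 1
  one : (1 : ZMod q) ∈ H

variable {q : ℕ} [NeZero q] {H : Finset (ZMod q)}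

omit [NeZero q] in
theorem exists_mul_eq (hH : IsUnitGroupMod H) {a b : ZMod q} (ha : a ∈ H) (hb : b ∈ H) :
    ∃ g ∈ H, a * g = b := by
  have h : H.image (fun g => a * g) = H := eq_of_subset_of_card_le
    (image_subset_iff.2 fun g hg => hH.mul a ha g hg)
    (le_of_eq (card_image_of_injective _ (hH.unit a ha).mul_right_injective).symm)
  rw [← h, mem_image] at hb
  exact hb

theorem iterSums_mul_mem (hH : IsUnitGroupMod H) {a : ZMod q} (ha : a ∈ H) :
    ∀ (i : ℕ) {x : ZMod q}, x ∈ iterSums H i → a * x ∈ iterSums H i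
  | 0, x, hx => by simp_all [iterSums]
  | i + 1, x, hx => by
    rw [iterSums, Finset.mem_add] at hx ⊢
    obtain ⟨u, hu, v, hv, rfl⟩ := hx
    exact ⟨a * u, hH.mul a ha u hu, a * v, iterSums_mul_mem hH ha i hv, (mul_add a u v).symm⟩

theorem card_orbit (hH : IsUnitGroupMod H) {x : ZMod q} (hx : x ≠ 0) :
    #(H.image fun h => h * x) = #H := by
  refine card_image_of_injOn fun a ha b hb e => ?_
  obtain ⟨g, hg, rfl⟩ := exists_mul_eq hH ha hb
  by_contra hne
  have hg1 : g ≠ 1 := fun h => hne (by rw [h, mul_one])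
  refine hx ?_
  have h1 : a * ((g - 1) * x) = 0 := by
    linear_combination -e
  exact ((hH.sub_one g hg hg1).mul_right_eq_zero).1 (((hH.unit a ha).mul_right_eq_zero).1 h1)

/-- A set invariant under `H` and without `0` has a multiple of `#H` elements. -/
theorem card_dvd_of_invariant (hH : IsUnitGroupMod H) {T : Finset (ZMod q)}
    (h0 : (0 : ZMod q) ∉ T) (hT : ∀ a ∈ H, ∀ x ∈ T, a * x ∈ T) : #H ∣ #T := by
  classical
  rw [card_eq_sum_card_image (fun x => H.image fun h => h * x) T]
  refine Finset.dvd_sum fun o ho => ?_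
  obtain ⟨x, hx, rfl⟩ := mem_image.1 ho
  rw [show T.filter (fun y => (H.image fun h => h * y) = H.image fun h => h * x) =
    H.image (fun h => h * x) from ?_, card_orbit hH (ne_of_mem_of_not_mem hx h0)]
  ext y
  simp only [mem_filter, mem_image]
  constructor
  · rintro ⟨-, he⟩
    have h1 : (1 : ZMod q) * y ∈ H.image fun h => h * x := he ▸ mem_image_of_mem _ hH.one
    rw [one_mul, mem_image] at h1
    exact h1
  · rintro ⟨a, ha, rfl⟩
    refine ⟨hT a ha x hx, ?_⟩
    ext z
    simp only [mem_image]
    constructor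
    · rintro ⟨b, hb, rfl⟩
      exact ⟨b * a, hH.mul b hb a ha, mul_assoc b a x⟩
    · rintro ⟨b, hb, rfl⟩
      obtain ⟨g, hg, rfl⟩ := exists_mul_eq hH ha hb
      exact ⟨g, hg, by ring⟩

theorem eq_univ_of_add_mem {S : Finset (ZMod q)} (hS : S.Nonempty) {c : ZMod q} (hc : IsUnit c)
    (h : ∀ x ∈ S, x + c ∈ S) : S = univ := by
  obtain ⟨x, hx⟩ := hS
  have key : ∀ j : ℕ, x + (j : ZMod q) * c ∈ S := fun j => by
    induction j with
    | zero => simpa using hx
    | succ j ih =>
      have := h _ ih
      rwa [show x + (j : ZMod q) * c + c = x + ((j + 1 : ℕ) : ZMod q) * c by push_cast; ring]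
        at this
  refine eq_univ_of_forall fun y => ?_
  have h1 := key ((y - x) * ↑hc.unit⁻¹ : ZMod q).val
  rwa [ZMod.natCast_zmod_val, mul_assoc, hc.val_inv_mul, mul_one, add_sub_cancel] at h1

/-- **Every residue is a sum of `i ≥ 2 n` elements.** -/
theorem iterSums_eq_univ (hH : IsUnitGroupMod H) {n : ℕ} (hn : q - 1 ≤ n * #H) {i : ℕ}
    (hi : 2 * n ≤ i) : iterSums H i = univ := by
  classical
  have hne : ∀ j, (iterSums H j).Nonempty := fun j => by
    induction j with
    | zero => simp [iterSums]
    | succ j ih => rw [iterSums]; exact (show H.Nonempty from ⟨1, hH.one⟩).add ih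
  obtain ⟨c, hc, hc1⟩ := hH.nontrivial
  have hH2 : 2 ≤ #H := one_lt_card.2 ⟨c, hc, 1, hH.one, hc1⟩
  have hstep : ∀ j, iterSums H j ≠ univ → #(iterSums H j) < #(iterSums H (j + 1)) := by
    intro j hj
    by_contra hle
    rw [not_lt] at hle
    refine hj (eq_univ_of_add_mem (hne j) (hH.sub_one c hc hc1) fun x hx => ?_)
    have h1 : ∀ a ∈ H, (iterSums H j).image (fun y => a + y) = iterSums H (j + 1) := fun a ha =>
      eq_of_subset_of_card_le (image_subset_iff.2 fun y hy => Finset.add_mem_add ha hy)
        (hle.trans_eq (card_image_of_injective _ (add_right_injective a)).symm)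
    have h2 : c + x ∈ (iterSums H j).image (fun y => (1 : ZMod q) + y) := by
      rw [h1 1 hH.one]
      exact Finset.add_mem_add hc hx
    obtain ⟨y, hy, e⟩ := mem_image.1 h2
    rwa [show x + (c - 1) = y by linear_combination -e]
  have hdec : ∀ j, ∃ a r : ℕ, r ≤ 1 ∧ #(iterSums H j) = a * #H + r := by
    intro j
    obtain ⟨a, ha⟩ := card_dvd_of_invariant hH (T := (iterSums H j).erase 0) (by simp)
      fun b hb x hx => by
        rw [mem_erase] at hx ⊢
        exact ⟨fun h => hx.1 ((hH.unit b hb).mul_right_eq_zero.1 h),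
          iterSums_mul_mem hH hb j hx.2⟩
    by_cases h0 : (0 : ZMod q) ∈ iterSums H j
    · refine ⟨a, 1, le_rfl, ?_⟩
      rw [← card_erase_add_one h0, ha, mul_comm]
    · refine ⟨a, 0, zero_le_one, ?_⟩
      rw [erase_eq_of_notMem h0] at ha
      rw [ha, mul_comm, add_zero]
  choose a r hr hcard using hdec
  have hmain : ∀ j, iterSums H j = univ ∨ j + 1 ≤ 2 * a j + r j := by
    intro j
    induction j with
    | zero =>
      right
      have := hcard 0
      simp only [iterSums, card_singleton] at this
      rcases Nat.eq_zero_or_pos (a 0) with h | h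
      · rw [h, zero_mul] at this
        omega
      · omega
    | succ j ih =>
      by_cases hu : iterSums H j = univ
      · left
        refine eq_univ_of_forall fun y => ?_
        rw [iterSums, hu]
        exact Finset.mem_add.2 ⟨1, hH.one, y - 1, mem_univ _, add_sub_cancel 1 y⟩
      right
      have h := hstep j hu
      rw [hcard, hcard] at h
      have h2 := ih.resolve_left hu
      have := hr j
      have := hr (j + 1)
      rcases Nat.lt_or_ge (a j) (a (j + 1)) with h3 | h3
      · omega
      · rcases h3.lt_or_eq with h4 | h4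
        · have h5 := Nat.mul_le_mul_right #H (show a (j + 1) + 1 ≤ a j from h4)
          rw [add_one_mul] at h5
          omega
        · rw [h4] at h ⊢
          omega
  by_contra hu
  have h := (hmain i).resolve_left hu
  have h1 : #(iterSums H i) < q := by
    simpa using card_lt_card (ssubset_univ_iff.2 hu)
  rw [hcard] at h1
  have := hr i
  rcases lt_trichotomy (a i) n with h2 | h2 | h2
  · omega
  · rw [h2] at h1 h
    omega
  · have h3 := Nat.mul_le_mul_right #H (show n + 1 ≤ a i from h2)
    rw [add_one_mul] at h3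
    omega

end FA.WaringGoldbachAlmostAll
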