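import Fermat.Agent.WaringGoldbach.Singular
import Fermat.Agent.WaringGoldbachAlmostAll.Sumsets
import Mathlib.NumberTheory.Basic

/-!
# The singular series of the Waring–Goldbach problem from `3 k - 1` summands on

Modulo `p ^ γ`, `p ∣ k`, `(p - 1) ∤ k`, the `k`-th powers of the units form a group `H` that
injects modulo `p`, so every residue is a sum of `s ≥ 3 k - 1` of them; hence `𝔖 (N) ≥ c > 0` for
`s ≥ max (3 k - 1) 6` and `N ≡ s (mod K (k))`.
-/

set_option autoImplicit false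

noncomputable section

namespace FA.WaringGoldbachAlmostAll

open Finset Filter Topology FA.WaringGoldbach
open FA.ThreePrimes (unitResidues)

variable {k s : ℕ}

/-- Every residue modulo `p ^ γ` is a sum of `s ≥ 3 k - 1` powers of units. -/
theorem exists_solution_primePow (hk : 1 ≤ k) (hs : 3 * k ≤ s + 1) {p : ℕ} (hp : p.Prime)
    (hpk : p ∣ k) (hd : ¬(p - 1) ∣ k) (N : ℕ) :
    ∃ z : Fin s → ℕ, (∀ i, z i ∈ unitResidues (p ^ localExp k p)) ∧
      ((p ^ localExp k p : ℕ) : ℤ) ∣ ((∑ i, z i ^ k : ℕ) : ℤ) - N := by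
  classical
  have : Fact p.Prime := ⟨hp⟩
  have hp2 : p ≠ 2 := by
    rintro rfl
    exact hd (one_dvd k)
  have hp3 : 3 ≤ p := by have := hp.two_le; omega
  obtain ⟨v, hv⟩ : ∃ v, v = padicValNat p k := ⟨_, rfl⟩
  obtain ⟨m, hm⟩ : p ^ v ∣ k := hv ▸ pow_padicValNat_dvd
  have hm0 : 0 < m := by
    rcases Nat.eq_zero_or_pos m with rfl | h
    · simp at hm; omega
    · exact h
  have hloc : localExp k p = v + 1 := by rw [localExp, if_neg (fun h => hp2 h.1), hv]
  rw [hloc]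
  obtain ⟨q, hq⟩ : ∃ q, q = p ^ (v + 1) := ⟨_, rfl⟩
  rw [← hq]
  have hq1 : 1 < q := hq ▸ Nat.one_lt_pow (by omega) hp.one_lt
  have : NeZero q := ⟨by omega⟩
  obtain ⟨H, hH⟩ : ∃ H : Finset (ZMod q),
      H = ((univ : Finset (ZMod q)).filter fun x => IsUnit x).image (fun x => x ^ k) := ⟨_, rfl⟩
  have hmem : ∀ h : ZMod q, h ∈ H ↔ ∃ x, IsUnit x ∧ x ^ k = h := fun h => by
    simp [hH]
  have hunit : ∀ a : ℕ, ¬p ∣ a → IsUnit (a : ZMod q) := fun a ha => by
    rw [ZMod.isUnit_iff_coprime, hq]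
    exact ((hp.coprime_iff_not_dvd.2 ha).symm.pow_right _)
  have hfrob : ∀ x : ZMod p, x ^ k = x ^ m := fun x => by rw [hm, pow_mul, ZMod.pow_card_pow]
  have hgroup : IsUnitGroupMod H := by
    refine ⟨fun h hh => ?_, fun a ha b hb => ?_, fun h hh h1 => ?_, ?_, ?_⟩
    · obtain ⟨x, hx, rfl⟩ := (hmem h).1 hh
      exact hx.pow k
    · obtain ⟨x, hx, rfl⟩ := (hmem a).1 ha
      obtain ⟨y, hy, rfl⟩ := (hmem b).1 hb
      exact (hmem _).2 ⟨x * y, hx.mul hy, mul_pow x y k⟩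
    · obtain ⟨x, hx, rfl⟩ := (hmem h).1 hh
      obtain ⟨a, rfl⟩ : ∃ a : ℕ, (a : ZMod q) = x := ⟨x.val, ZMod.natCast_zmod_val x⟩
      have hcop : IsUnit (((a : ℤ) ^ k - 1 : ℤ) : ZMod q) := by
        rw [ZMod.coe_int_isUnit_iff_isCoprime, hq, Nat.cast_pow]
        refine IsCoprime.pow_left ?_
        rw [(Nat.prime_iff_prime_int.1 hp).coprime_iff_not_dvd]
        intro hdvd
        refine h1 ?_
        have h2 : (p : ℤ) ∣ (a : ℤ) ^ m - 1 := by
          rw [← ZMod.intCast_zmod_eq_zero_iff_dvd] at hdvd ⊢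
          push_cast at hdvd ⊢
          rwa [← hfrob]
        have h3 := dvd_sub_pow_of_dvd_sub h2 v
        rw [one_pow, ← pow_mul, mul_comm m, ← hm] at h3
        have h4 : ((q : ℕ) : ℤ) ∣ (a : ℤ) ^ k - 1 := by rw [hq]; exact_mod_cast h3
        rw [← ZMod.intCast_zmod_eq_zero_iff_dvd] at h4
        push_cast at h4
        exact sub_eq_zero.1 h4
      push_cast at hcop
      exact hcop
    · obtain ⟨y, -, hpy, hy1⟩ := exists_pow_ne_one hp hd
      refine ⟨(y : ZMod q) ^ k, (hmem _).2 ⟨y, hunit y hpy, rfl⟩, fun h => hy1 ?_⟩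
      have h2 := congrArg (ZMod.castHom (hq ▸ dvd_pow_self p v.succ_ne_zero) (ZMod p)) h
      simpa only [map_pow, map_natCast, map_one] using h2
    · exact (hmem 1).2 ⟨1, isUnit_one, one_pow k⟩
  have hcard : p - 1 ≤ m * #H := by
    obtain ⟨A, hA⟩ : ∃ A,
        A = ((univ : Finset (ZMod p)).filter fun x => x ≠ 0).image (fun x => x ^ m) := ⟨_, rfl⟩
    have h1 : p - 1 ≤ m * #A := by
      refine le_trans (le_of_eq ?_) (card_le_mul_card_image (n := m)
        ((univ : Finset (ZMod p)).filter fun x => x ≠ 0) (f := fun x => x ^ m) fun b _ => ?_)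
        |>.trans (le_of_eq (by rw [hA]))
      · rw [filter_ne', card_erase_of_mem (mem_univ _), card_univ, ZMod.card]
      · exact (card_le_card (filter_subset_filter _ (filter_subset _ _))).trans
          (WaringAsymptotic.card_pow_eq_le (by omega) b)
    refine h1.trans (Nat.mul_le_mul_left m ((card_le_card (t := H.image
      (ZMod.castHom (hq ▸ dvd_pow_self p v.succ_ne_zero) (ZMod p))) ?_).trans card_image_le))
    intro b hb
    rw [hA, mem_image] at hb
    obtain ⟨y, hy, rfl⟩ := hb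
    refine mem_image.2 ⟨(y.val : ZMod q) ^ k, (hmem _).2 ⟨_, hunit y.val fun hdy =>
      (mem_filter.1 hy).2 ?_, rfl⟩, ?_⟩
    · rw [← ZMod.natCast_zmod_val y, ZMod.natCast_eq_zero_iff]
      exact hdy
    · rw [map_pow, map_natCast, ZMod.natCast_zmod_val, hfrob]
  obtain ⟨G, hG⟩ : p - 1 ∣ q - 1 := by
    simpa [hq] using Nat.sub_dvd_pow_sub_pow p 1 (v + 1)
  have hn : q - 1 ≤ m * G * #H := by
    rw [hG, mul_right_comm]
    exact Nat.mul_le_mul_right G hcard
  have hG3 : 2 * G + 1 ≤ 3 * p ^ v := by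
    by_contra h
    have h5 := Nat.mul_le_mul_left (p - 1) (show 3 * p ^ v ≤ 2 * G by omega)
    rw [mul_left_comm _ 2, ← hG, hq, pow_succ, mul_comm (p - 1)] at h5
    obtain ⟨P, hP⟩ : ∃ P, P = p ^ v := ⟨_, rfl⟩
    have hP1 : 1 ≤ P := hP ▸ Nat.one_le_pow _ _ hp.pos
    rw [← hP, Nat.mul_sub_one, mul_assoc 3 P p] at h5
    have := Nat.mul_le_mul_left P hp3
    omega
  have hns : 2 * (m * G) ≤ s := by
    have h5 := Nat.mul_le_mul_left m hG3
    rw [Nat.mul_add, mul_one, show m * (3 * p ^ v) = 3 * (p ^ v * m) by ring, ← hm,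
      show m * (2 * G) = 2 * (m * G) by ring] at h5
    omega
  have hfull := iterSums_eq_univ hgroup hn hns
  obtain ⟨x, hxH, hx⟩ := exists_of_mem_iterSums (n := (N : ZMod q)) (hfull ▸ mem_univ _)
  choose y hy hyx using fun i => (hmem _).1 (hxH i)
  refine ⟨fun i => (y i).val, fun i => ?_, ?_⟩
  · have h6 : IsUnit (((y i).val : ℕ) : ZMod q) := by rw [ZMod.natCast_zmod_val]; exact hy i
    rw [unitResidues, mem_filter, mem_range]
    exact ⟨ZMod.val_lt _, ((ZMod.isUnit_iff_coprime _ q).1 h6).symm⟩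
  · rw [← ZMod.intCast_zmod_eq_zero_iff_dvd]
    push_cast
    simp [hyx, hx]

/-- **The local congruences are soluble.** -/
theorem exists_solution_half (hk : 1 ≤ k) (hs : 3 * k ≤ s + 1) (N : ℕ) {p : ℕ} (hp : p.Prime)
    (hN : (p - 1) ∣ k → N ≡ s [MOD p ^ localExp k p]) :
    ∃ z : Fin s → ℕ, (∀ i, z i ∈ unitResidues (p ^ localExp k p)) ∧
      ((p ^ localExp k p : ℕ) : ℤ) ∣ ((∑ i, z i ^ k : ℕ) : ℤ) - N := by
  have hγ := one_le_localExp k p
  by_cases hd : (p - 1) ∣ k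
  · refine ⟨fun _ => 1, fun i => ?_, by simpa using Nat.modEq_iff_dvd.1 (hN hd)⟩
    rw [unitResidues, mem_filter, mem_range]
    exact ⟨Nat.one_lt_pow (by omega) hp.one_lt, Nat.coprime_one_right _⟩
  by_cases hpk : p ∣ k
  · exact exists_solution_primePow hk hs hp hpk hd N
  rw [localExp_of_not_dvd hpk, pow_one]
  have : NeZero p := ⟨hp.ne_zero⟩
  obtain ⟨x, hx0, hx⟩ := exists_solution_prime (s := s) (k := k) (by omega) hk hp hd (N : ZMod p)
  refine ⟨fun i => (x i).val, fun i => ?_, ?_⟩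
  · rw [unitResidues, mem_filter, mem_range, hp.coprime_iff_not_dvd]
    refine ⟨ZMod.val_lt _, fun hd => hx0 i ?_⟩
    rw [← ZMod.natCast_zmod_val (x i), ZMod.natCast_eq_zero_iff]
    exact hd
  · rw [← ZMod.intCast_zmod_eq_zero_iff_dvd]
    push_cast
    simp [hx]

/-- The local factors. -/
theorem primeDensity_spec_half (hk : 1 ≤ k) (hs6 : 6 ≤ s) (hs : 3 * k ≤ s + 1) (N : ℕ) {p : ℕ}
    (hp : p.Prime) (hN : (p - 1) ∣ k → N ≡ s [MOD p ^ localExp k p]) :
    ∃ v : ℝ, primeDensity k s N p = v ∧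
      ((p ^ localExp k p : ℕ) : ℝ) / ((p ^ localExp k p).totient : ℝ) ^ s ≤ v ∧
      1 - absConst k s * (p : ℝ) ^ (-2 : ℝ) ≤ v := by
  obtain ⟨z, hz, hzN⟩ := exists_solution_half hk hs N hp hN
  have e := (primeDensity_eq hk (by omega) N hp).trans
    ((sum_primeSummand_primePow hp k s N (localExp k p)).symm.trans
      (sum_primeSummand_eq k s N (pow_pos hp.pos _)))
  refine ⟨_, e, div_le_div_of_nonneg_right (le_mul_of_one_le_right (Nat.cast_nonneg _) ?_)
    (by positivity), ?_⟩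
  · rw [Nat.one_le_cast, Finset.one_le_card]
    exact ⟨z, mem_filter.2 ⟨Fintype.mem_piFinset.2 hz, hzN⟩⟩
  · have h1 := congrArg Complex.re ((primeDensity_eq hk (by omega) N hp).symm.trans e)
    simp only [Complex.re_sum, Complex.ofReal_re] at h1
    rw [sum_range_succ', pow_zero, primeTerm_one, Complex.one_re] at h1
    have b3 := (tsum_primeAbs_primePow (k := k) (s := s) hk hs6 hp).2
    rw [tsum_eq_sum (s := range (localExp k p + 1)) fun l hl => by
      rw [mem_range] at hl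
      exact primeAbs_primePow_eq_zero hk (by omega) hp (by omega),
      sum_range_succ', pow_zero, primeAbs_one] at b3
    have b4 : -∑ l ∈ range (localExp k p), primeAbs k s (p ^ (l + 1)) ≤
        ∑ l ∈ range (localExp k p), (primeTerm k s N (p ^ (l + 1))).re := by
      rw [← sum_neg_distrib]
      exact sum_le_sum fun l _ =>
        (abs_le.1 ((Complex.abs_re_le_norm _).trans (norm_primeTerm_le k s N _))).1
    linarith

/-- **Positivity from `3 k - 1` summands on.** -/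
theorem exists_primeSeries_pos_half (hk : 1 ≤ k) (hs6 : 6 ≤ s) (hs : 3 * k ≤ s + 1) :
    ∃ c : ℝ, 0 < c ∧ ∀ N, N ≡ s [MOD classModulus k] → c ≤ primeSeries k s N := by
  obtain ⟨a, ha⟩ : ∃ a : ℕ → ℝ, a = fun p : ℕ => absConst k s * (p : ℝ) ^ (-2 : ℝ) := ⟨_, rfl⟩
  have hasum : Summable a := ha ▸ (Real.summable_nat_rpow.2 (by norm_num)).mul_left _
  have ha0 : ∀ p, 0 ≤ a p := fun p => by
    rw [ha]; exact mul_nonneg (absConst_nonneg k s) (by positivity)
  obtain ⟨p₀, hp₀⟩ := ((tendsto_sum_nat_add a).eventually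
    (eventually_le_nhds (show (0 : ℝ) < 1 / 2 by norm_num))).exists
  obtain ⟨m, hm⟩ : ∃ m : ℕ → ℝ, m = fun p : ℕ =>
      ((p ^ localExp k p : ℕ) : ℝ) / ((p ^ localExp k p).totient : ℝ) ^ s := ⟨_, rfl⟩
  have hm0 : ∀ p ∈ Nat.primesBelow p₀, 0 < m p := fun p hp => by
    have h1 := pow_pos (Nat.mem_primesBelow.1 hp).2.pos (localExp k p)
    have h2 := Nat.totient_pos.2 h1
    rw [hm]
    exact div_pos (Nat.cast_pos.2 h1) (pow_pos (Nat.cast_pos.2 h2) s)
  refine ⟨(∏ p ∈ Nat.primesBelow p₀, m p) * (1 / 2), mul_pos (prod_pos hm0) (by norm_num),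
    fun N hN => ?_⟩
  have hE := EulerProduct.eulerProduct (f := primeTerm k s N) (primeTerm_one k s N)
    (fun h => primeTerm_mul k s N h) (summable_primeTerm hk hs6 N) (primeTerm_zero k s N)
  refine ge_of_tendsto ((Complex.continuous_re.tendsto _).comp hE)
    (eventually_atTop.2 ⟨p₀, fun n hn => ?_⟩)
  obtain ⟨S, hS⟩ : ∃ S, S = Nat.primesBelow n := ⟨_, rfl⟩
  obtain ⟨d, hd⟩ : ∃ d : ℕ → ℝ, d = fun p => (primeDensity k s N p).re := ⟨_, rfl⟩
  have hspec : ∀ p, p.Prime → primeDensity k s N p = (d p : ℂ) ∧ m p ≤ d p ∧ 1 - a p ≤ d p := by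
    intro p hp
    obtain ⟨v, hv, h1, h2⟩ := primeDensity_spec_half hk hs6 hs N hp
      fun h => Nat.ModEq.of_dvd (dvd_classModulus hk hp h) hN
    have : d p = v := by rw [hd]; simp [hv]
    rw [this, hm, ha]
    exact ⟨hv, h1, h2⟩
  have hreal : ∏ p ∈ S, ∑' e, primeTerm k s N (p ^ e) = ((∏ p ∈ S, d p : ℝ) : ℂ) := by
    rw [Complex.ofReal_prod]
    exact prod_congr rfl fun p hp => (hspec p (Nat.mem_primesBelow.1 (hS ▸ hp)).2).1
  simp only [Function.comp, ← hS, hreal, Complex.ofReal_re]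
  have hlow : S.filter (fun p => p < p₀) = Nat.primesBelow p₀ := by
    ext p
    simp only [hS, mem_filter, Nat.mem_primesBelow]
    exact ⟨fun h => ⟨h.2, h.1.2⟩, fun h => ⟨⟨h.1.trans_le hn, h.2⟩, h.1⟩⟩
  rw [← prod_filter_mul_prod_filter_not S (fun p => p < p₀), hlow]
  have hsum : ∑ p ∈ S.filter (fun p => ¬p < p₀), a p ≤ 1 / 2 := by
    refine le_trans ?_ hp₀
    refine (sum_le_sum_of_subset_of_nonneg (t := Ico p₀ n) (fun p hp => ?_)
      fun p _ _ => ha0 p).trans ?_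
    · rw [hS, mem_filter, Nat.mem_primesBelow] at hp
      exact mem_Ico.2 ⟨not_lt.1 hp.2, hp.1.1⟩
    · rw [sum_Ico_eq_sum_range]
      simp only [add_comm p₀]
      exact ((summable_nat_add_iff p₀).2 hasum).sum_le_tsum _ fun i _ => ha0 _
  refine mul_le_mul (prod_le_prod (fun p hp => (hm0 p hp).le)
    fun p hp => (hspec p (Nat.mem_primesBelow.1 hp).2).2.1) ?_ (by norm_num)
    (prod_nonneg fun p hp =>
      le_trans (hm0 p hp).le (hspec p (Nat.mem_primesBelow.1 hp).2).2.1)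
  have hle1 : ∀ p ∈ S.filter (fun p => ¬p < p₀), a p ≤ 1 := fun p hp =>
    ((single_le_sum (fun q _ => ha0 q) hp).trans hsum).trans (by norm_num)
  refine le_trans (by linarith) ((WaringAsymptotic.one_sub_sum_le_prod _ a (fun p _ => ha0 p)
    hle1).trans (prod_le_prod (fun p hp => sub_nonneg.2 (hle1 p hp)) fun p hp => ?_))
  exact (hspec p (Nat.mem_primesBelow.1 (hS ▸ (mem_filter.1 hp).1)).2).2.2

end FA.WaringGoldbachAlmostAll
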