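import Fermat.Agent.WaringGoldbachAlmostAll.Major

/-!
# The minor arcs in mean square, and the prime powers on average

`∑_{N ≤ X} |m (N)| ^ 2 = O (X ^ (2 s/k - 1) / (log X) ^ A)` for the minor arcs `m (N)` when
`2 s ≥ k² + k + 4`, by Bessel, Vinogradov's bound and the moment; the representations that use a
proper prime power total `O (P ^ (s - 1/2) log P)`.
-/

set_option autoImplicit false

noncomputable section

namespace FA.WaringGoldbachAlmostAll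

open Finset FA.WaringGoldbach ArithmeticFunction
open FA.ThreePrimes hiding mainTerm singularSeries singularTerm
open FA.WaringAsymptotic (rootFloor)

theorem root_facts {k X P T : ℕ} (hk : 1 ≤ k) (hT : 2 ≤ T) (hX : T ^ k ≤ X)
    (hP : P = rootFloor k X) :
    T ≤ P ∧ P ^ k ≤ X ∧ X < (P + 1) ^ k ∧ Real.log X ≤ 2 * k * Real.log P := by
  have hX1 : 1 ≤ X := le_trans (Nat.one_le_pow _ _ (by omega)) hX
  obtain ⟨-, hPX, hXP⟩ := WaringAsymptotic.rootFloor_spec hk hX1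
  rw [← hP] at hPX hXP
  have hTP : T ≤ P := by
    by_contra h
    have := Nat.pow_le_pow_left (show P + 1 ≤ T by omega) k
    omega
  refine ⟨hTP, hPX, hXP, ?_⟩
  have h2P : (2 : ℝ) ≤ P := Nat.ofNat_le_cast.2 (hT.trans hTP)
  have h := Real.log_le_log (Nat.cast_pos.2 hX1) (show (X : ℝ) ≤ (2 * (P : ℝ)) ^ k by
    exact_mod_cast hXP.le.trans (Nat.pow_le_pow_left (show P + 1 ≤ 2 * P by omega) k))
  rw [Real.log_pow, Real.log_mul two_ne_zero (by linarith)] at h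
  have h3 := Real.log_le_log two_pos h2P
  have h4 := mul_le_mul_of_nonneg_left h3 (Nat.cast_nonneg (α := ℝ) k)
  linarith

/-- **The minor arcs in mean square.** -/
theorem exists_minor_square {k s : ℕ} (hk : 2 ≤ k) (hs : k * (k + 1) + 4 ≤ 2 * s) (A : ℕ) :
    ∃ (K X₀ : ℕ) (C : ℝ), 2 ≤ K ∧ 0 < C ∧ ∀ X M : ℕ, X₀ ≤ X → M = s * X →
      ∑ N ∈ Icc 1 X, ‖(∑ h ∈ primeMinor k K X M, primeBox k s X M N h) / M‖ ^ 2 ≤
        C * ((X : ℝ) ^ (2 * ((s : ℝ) / k - 1) + 1) / Real.log X ^ A) := by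
  obtain ⟨t, ht⟩ : ∃ t, t = VMC.tri k + 1 := ⟨_, rfl⟩
  have h2t : 2 * t = k * (k + 1) + 2 := by rw [ht, mul_add, VMC.two_mul_tri]
  obtain ⟨w, hw⟩ : ∃ w, 2 * s = w + 1 + 2 * t := ⟨2 * s - 2 * t - 1, by omega⟩
  obtain ⟨K₁, C₁, L₀, hK1, hC₁, hmin⟩ := exists_minor_bound hk (A + 2 * t)
  obtain ⟨C₈, hC₈, hmom⟩ := exists_powerDiagonal_le hk (show k * (k + 1) < 2 * t by omega)
  obtain ⟨K₀, hK₀, hpow⟩ := exists_log_pow_le K₁
  obtain ⟨T, hT⟩ : ∃ T : ℕ, T = max (max ⌈Real.exp L₀⌉₊ ⌈Real.exp 1⌉₊) (max 2 ⌈K₀ ^ 2⌉₊) :=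
    ⟨_, rfl⟩
  refine ⟨K₁ + 1, T ^ k, C₁ ^ (w + 1) * C₈ * (2 * (k : ℝ)) ^ A, by omega, by positivity,
    fun X M hX hM => ?_⟩
  obtain ⟨P, hP⟩ : ∃ P, P = rootFloor k X := ⟨_, rfl⟩
  have hT2 : 2 ≤ T := hT ▸ le_trans (le_max_left _ _) (le_max_right _ _)
  obtain ⟨hTP, hPX, hXP, hlogX⟩ := root_facts (by omega) hT2 hX hP
  have hX1 : 1 ≤ X := le_trans (Nat.one_le_pow _ _ (by omega)) hX
  obtain ⟨l, hl⟩ : ∃ l, l = Real.log P := ⟨_, rfl⟩
  have hPr : (2 : ℝ) ≤ P := Nat.ofNat_le_cast.2 (hT2.trans hTP)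
  have hexp : ∀ x : ℝ, ⌈Real.exp x⌉₊ ≤ T → x ≤ l := fun x hx => by
    rw [hl, Real.le_log_iff_exp_le (by linarith)]
    exact (Nat.le_ceil _).trans (Nat.cast_le.2 (hx.trans hTP))
  have hlL : L₀ ≤ l := hexp L₀ (hT ▸ le_trans (le_max_left _ _) (le_max_left _ _))
  have hl1 : 1 ≤ l := hexp 1 (hT ▸ le_trans (le_max_right _ _) (le_max_left _ _))
  have hM0 : 0 < M := hM ▸ Nat.mul_pos (by omega) hX1
  have hMr : (0 : ℝ) < M := Nat.cast_pos.2 hM0
  have hlX : l ^ K₁ ≤ (X : ℝ) := by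
    have h1 : K₀ ≤ √(P : ℝ) := Real.le_sqrt_of_sq_le ((Nat.le_ceil _).trans (Nat.cast_le.2
      ((hT ▸ le_trans (le_max_right _ _) (le_max_right _ _) : _ ≤ T).trans hTP)))
    refine (hl ▸ hpow P (by linarith)).trans ((mul_le_mul_of_nonneg_right h1
      (Real.sqrt_nonneg _)).trans ?_)
    rw [Real.mul_self_sqrt (by linarith)]
    exact Nat.cast_le.2 ((Nat.le_self_pow (by omega) P).trans hPX)
  -- the bound on the minor arcs
  have hsup : ∀ h ∈ primeMinor k (K₁ + 1) X M,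
      ‖powTwist k ((h : ℝ) / M) Λ P‖ ≤ C₁ * (P / l ^ (A + 2 * t)) := by
    intro h hh
    rw [hl]
    refine hmin X P _ hP hX1 (hl ▸ hlL) (hl ▸ hlX) fun z hz => ?_
    rw [primeMinor, ← hP, ← hl, mem_sdiff, mem_biUnion] at hh
    by_contra hle
    rw [not_lt, ← hl] at hle
    rw [← hl] at hz
    refine hh.2 ⟨z, ?_, mem_filter.2 ⟨hh.1, hle.trans ?_⟩⟩
    · obtain ⟨h1, h2⟩ := mem_arcCentres.1 hz
      exact mem_arcCentres.2 ⟨⟨h1.1, h1.2.trans (Nat.floor_mono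
        (pow_le_pow_right₀ hl1 (Nat.le_succ _)))⟩, h2⟩
    · exact div_le_div_of_nonneg_right (pow_le_pow_right₀ hl1 (Nat.le_succ _))
        (Nat.cast_nonneg X)
  have hmoment : ∑ h ∈ range M, ‖powTwist k ((h : ℝ) / M) Λ P‖ ^ (2 * t) ≤
      M * (l ^ (2 * t) * (C₈ * ((P : ℝ) ^ (2 * t) / (P : ℝ) ^ k))) := by
    refine (sum_powTwist_pow_le (f := fun n => Λ n) (B := l) (fun n hn => ?_) ?_).trans
      (mul_le_mul_of_nonneg_left (mul_le_mul_of_nonneg_left ((hmom P (by omega)).trans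
        (le_of_eq ?_)) (by positivity)) hMr.le)
    · rw [mem_Ioc] at hn
      rw [abs_of_nonneg vonMangoldt_nonneg, hl]
      exact vonMangoldt_le_log.trans
        (Real.log_le_log (Nat.cast_pos.2 hn.1) (Nat.cast_le.2 hn.2))
    · exact hM ▸ lt_of_le_of_lt (Nat.mul_le_mul_left t hPX)
        (Nat.mul_lt_mul_of_pos_right (by omega) hX1)
    · rw [show 2 * (t : ℝ) - k = ((2 * t : ℕ) : ℝ) - ((k : ℕ) : ℝ) by push_cast; ring,
        Real.rpow_sub (by linarith), Real.rpow_natCast, Real.rpow_natCast]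
  -- Bessel
  have hsub : primeMinor k (K₁ + 1) X M ⊆ range M := sdiff_subset
  have h1 : ∀ N ∈ Icc 1 X, ‖(∑ h ∈ primeMinor k (K₁ + 1) X M, primeBox k s X M N h) / M‖ ^ 2 =
      ‖∑ h ∈ primeMinor k (K₁ + 1) X M,
        powTwist k ((h : ℝ) / M) Λ P ^ s * eAdd (-(N * ((h : ℝ) / M)))‖ ^ 2 / (M : ℝ) ^ 2 := by
    intro N _
    simp only [norm_div, Complex.norm_natCast, div_pow, primeBox, ← hP]
  rw [sum_congr rfl h1, ← sum_div, div_le_iff₀ (by positivity)]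
  have h2X : 2 * X ≤ M := hM ▸ Nat.mul_le_mul_right X (by omega)
  refine (sum_le_sum_of_subset_of_nonneg (t := range M) (fun N hN => mem_range.2
    (by rw [mem_Icc] at hN; omega)) fun N _ _ => sq_nonneg _).trans ?_
  rw [AlmostGoldbach.sum_norm_sq_coeff hM0 _ hsub]
  have h3 : ∑ h ∈ primeMinor k (K₁ + 1) X M, ‖powTwist k ((h : ℝ) / M) Λ P ^ s‖ ^ 2 ≤
      (C₁ * (P / l ^ (A + 2 * t))) ^ (w + 1) *
        (M * (l ^ (2 * t) * (C₈ * ((P : ℝ) ^ (2 * t) / (P : ℝ) ^ k)))) := by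
    refine (sum_le_sum (g := fun h : ℕ => (C₁ * (P / l ^ (A + 2 * t))) ^ (w + 1) *
      ‖powTwist k ((h : ℝ) / M) Λ P‖ ^ (2 * t)) fun h hh => ?_).trans ?_
    · rw [norm_pow, ← pow_mul, mul_comm s 2, hw, pow_add]
      exact mul_le_mul_of_nonneg_right (pow_le_pow_left₀ (norm_nonneg _) (hsup h hh) _)
        (by positivity)
    · rw [← mul_sum]
      exact mul_le_mul_of_nonneg_left ((sum_le_sum_of_subset_of_nonneg hsub fun i _ _ => by
        positivity).trans hmoment) (by positivity)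
  refine (mul_le_mul_of_nonneg_left h3 hMr.le).trans ?_
  have h4 : (P : ℝ) ^ (w + 1) * (P : ℝ) ^ (2 * t) / (P : ℝ) ^ k ≤
      (X : ℝ) ^ (2 * ((s : ℝ) / k - 1) + 1) := by
    refine le_trans (le_of_eq ?_) (WaringAsymptotic.pow_root_le ?_ hPX)
    · rw [← pow_add, ← hw, ← Real.rpow_natCast, ← Real.rpow_natCast (P : ℝ) k,
        ← Real.rpow_sub (by linarith)]
      congr 1
      have : (k : ℝ) ≠ 0 := Nat.cast_ne_zero.2 (by omega)
      push_cast
      field_simp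
      ring
    · have h5 : 1 ≤ (s : ℝ) / k := by
        rw [one_le_div (by exact_mod_cast (show 0 < k by omega))]
        have := Nat.le_mul_self k
        have hkk : k * (k + 1) = k * k + k := by ring
        exact_mod_cast (show k ≤ s by omega)
      linarith
  have hlogX0 : 0 < Real.log X := Real.log_pos (Nat.one_lt_cast.2
    (lt_of_lt_of_le (Nat.one_lt_pow (by omega) (by omega)) hX))
  have h6 : Real.log X ^ A ≤ (2 * (k : ℝ)) ^ A * l ^ A := by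
    rw [← mul_pow]
    exact pow_le_pow_left₀ hlogX0.le (hl ▸ hlogX) A
  calc (M : ℝ) * ((C₁ * (P / l ^ (A + 2 * t))) ^ (w + 1) *
        (M * (l ^ (2 * t) * (C₈ * ((P : ℝ) ^ (2 * t) / (P : ℝ) ^ k)))))
      = (M : ℝ) ^ 2 * (C₁ ^ (w + 1) * C₈ * ((P : ℝ) ^ (w + 1) * (P : ℝ) ^ (2 * t) / (P : ℝ) ^ k) *
          (l ^ (2 * t) / (l ^ (A + 2 * t)) ^ (w + 1))) := by
        rw [mul_pow, div_pow]
        ring
    _ ≤ (M : ℝ) ^ 2 * (C₁ ^ (w + 1) * C₈ * (X : ℝ) ^ (2 * ((s : ℝ) / k - 1) + 1) *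
          ((2 * (k : ℝ)) ^ A / Real.log X ^ A)) := by
        refine mul_le_mul_of_nonneg_left (mul_le_mul
          (mul_le_mul_of_nonneg_left h4 (by positivity)) ?_ (by positivity) (by positivity))
          (by positivity)
        rw [div_le_div_iff₀ (by positivity) (pow_pos hlogX0 A)]
        calc l ^ (2 * t) * Real.log X ^ A ≤ l ^ (2 * t) * ((2 * (k : ℝ)) ^ A * l ^ A) := by gcongr
          _ = (2 * (k : ℝ)) ^ A * l ^ (A + 2 * t) := by ring
          _ ≤ _ := mul_le_mul_of_nonneg_left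
              (le_self_pow₀ (one_le_pow₀ hl1) (by omega)) (by positivity)
    _ = _ := by ring

/-- The representations of the `N ≤ X` that use a proper prime power. -/
theorem sum_primeRep_sub_onPrimes_le {k n X P : ℕ} (hk : 1 ≤ k) (hP1 : 1 ≤ P)
    (hXP : X < (P + 1) ^ k) :
    ∑ N ∈ Icc 1 X, (primeRep k (n + 1) Λ N - primeRep k (n + 1) onPrimes N) ≤
      ((n + 1 : ℕ) : ℝ) * (6 * (P : ℝ)) ^ n * (2 * √(P : ℝ) * Real.log P) := by
  classical
  obtain ⟨f, hf⟩ : ∃ f : (Fin (n + 1) → ℕ) → ℝ,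
      f = fun z => ∏ i, Λ (z i) - ∏ i, onPrimes (z i) := ⟨_, rfl⟩
  have hf0 : ∀ z, 0 ≤ f z := fun z => by
    rw [hf]
    exact sub_nonneg.2 (prod_le_prod (fun i _ => onPrimes_nonneg _) fun i _ => onPrimes_le _)
  obtain ⟨B, hB⟩ : ∃ B, B = Fintype.piFinset fun _ : Fin (n + 1) => Icc 1 P := ⟨_, rfl⟩
  have h1 : ∑ N ∈ Icc 1 X, (primeRep k (n + 1) Λ N - primeRep k (n + 1) onPrimes N) ≤
      ∑ z ∈ B, f z := by
    refine le_trans (le_of_eq (sum_congr rfl fun N hN => ?_))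
      ((sum_fiberwise_le_sum_of_sum_fiber_nonneg (g := fun z => ∑ i, z i ^ k)
        (t := Icc 1 X) (s := B) (f := f) fun N _ => sum_nonneg fun z _ => hf0 z))
    rw [primeRep, primeRep, ← sum_sub_distrib, hf, hB]
    refine sum_congr (ext fun z => ?_) fun _ _ => rfl
    simp only [mem_filter, Fintype.mem_piFinset, mem_Icc]
    rw [mem_Icc] at hN
    refine ⟨fun h => ⟨fun i => ⟨(h.1 i).1, ?_⟩, h.2⟩, fun h => ⟨fun i => ⟨(h.1 i).1, ?_⟩, h.2⟩⟩
    · by_contra hlt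
      have h3 := Nat.pow_le_pow_left (show P + 1 ≤ z i by omega) k
      have h4 := single_le_sum (f := fun j => z j ^ k) (fun j _ => Nat.zero_le _) (mem_univ i)
      have h5 := h.2
      omega
    · have h4 := single_le_sum (f := fun j => z j ^ k) (fun j _ => Nat.zero_le _) (mem_univ i)
      exact (Nat.le_self_pow (by omega) _).trans (h4.trans h.2.le)
  refine h1.trans ?_
  rw [hf, sum_sub_distrib, hB, sum_prod_piFinset, sum_prod_piFinset,
    prod_const, prod_const, card_univ, Fintype.card_fin]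
  obtain ⟨a, ha⟩ : ∃ a, a = ∑ m ∈ Icc 1 P, Λ m := ⟨_, rfl⟩
  obtain ⟨b, hb⟩ : ∃ b, b = ∑ m ∈ Icc 1 P, onPrimes m := ⟨_, rfl⟩
  rw [← ha, ← hb]
  have hb0 : 0 ≤ b := hb ▸ sum_nonneg fun m _ => onPrimes_nonneg m
  have hba : b ≤ a := hb ▸ ha ▸ sum_le_sum fun m _ => onPrimes_le m
  have ha6 : a ≤ 6 * (P : ℝ) := ha ▸ (sum_vonMangoldt_le P : _)
  have hab : a - b ≤ 2 * √(P : ℝ) * Real.log P := by
    rw [ha, hb, ← sum_sub_distrib]
    refine le_of_eq_of_le (sum_congr rfl fun m _ => ?_) (sum_powerPart_le hP1)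
    rw [onPrimes, powerPart]
    split_ifs <;> ring
  refine (le_abs_self _).trans ((abs_pow_sub_pow_le a b (n + 1)).trans ?_)
  rw [Nat.add_sub_cancel, abs_of_nonneg (sub_nonneg.2 hba), abs_of_nonneg (hb0.trans hba),
    abs_of_nonneg hb0, max_eq_left hba, mul_comm (a - b), mul_right_comm]
  exact mul_le_mul (mul_le_mul_of_nonneg_left (pow_le_pow_left₀ (hb0.trans hba) ha6 n)
    (Nat.cast_nonneg _)) hab (sub_nonneg.2 hba) (by positivity)

end FA.WaringGoldbachAlmostAll
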