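import Fermat.Agent.WaringGoldbachAlmostAll.Local
import Fermat.Agent.WaringGoldbachAlmostAll.MeanSquare

/-!
# The exceptional set in the Waring–Goldbach problem

For `2 s ≥ k² + k + 4`, `s ≥ 6` and every `A`, all but `O (X / (log X) ^ A)` numbers `N ≤ X` have
the weighted number of representations by `s` `k`-th powers of primes within `η N ^ (s/k - 1)` of
`𝔖 (N) Γ (1 + 1/k) ^ s / Γ (s/k) N ^ (s/k - 1)`.
-/

set_option autoImplicit false

noncomputable section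

namespace FA.WaringGoldbachAlmostAll

open Finset Filter FA.WaringGoldbach ArithmeticFunction
open FA.ThreePrimes hiding mainTerm singularSeries singularTerm
open FA.WaringAsymptotic (rootFloor weightConv)
open scoped Topology

/-- The main term. -/
def primeMain (k s N : ℕ) : ℝ :=
  primeSeries k s N * repConst k s * (N : ℝ) ^ ((s : ℝ) / k - 1)

theorem two_mul_le_of_half {k s : ℕ} (hk : 2 ≤ k) (hs : k * (k + 1) + 4 ≤ 2 * s) :
    2 * k ≤ s ∧ (6 ≤ s → 3 * k ≤ s + 1) := by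
  have hkk : k * (k + 1) = k * k + k := by ring
  rcases Nat.lt_or_ge k 3 with h | h
  · obtain rfl : k = 2 := by omega
    omega
  · have := Nat.mul_le_mul_right k h
    rcases Nat.lt_or_ge k 5 with h5 | h5
    · interval_cases k <;> omega
    · have := Nat.mul_le_mul_right k h5
      omega

/-- **The exceptions up to `X` to the bound `η X ^ (s/k - 1)`.** -/
theorem exists_uniform_exceptions {k s : ℕ} (hk : 2 ≤ k) (hs : k * (k + 1) + 4 ≤ 2 * s)
    (hs6 : 6 ≤ s) (A : ℕ) {η : ℝ} (hη : 0 < η) : ∃ C : ℝ, 0 < C ∧ ∀ X : ℕ, 2 ≤ X →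
      (((Icc 1 X).filter fun N : ℕ => η * (X : ℝ) ^ ((s : ℝ) / k - 1) <
          |primeRep k s onPrimes N - primeMain k s N|).card : ℝ) ≤
        C * (X / Real.log X ^ A) := by
  classical
  obtain ⟨n, rfl⟩ : ∃ n, s = n + 1 := ⟨s - 1, by omega⟩
  obtain ⟨h2k, -⟩ := two_mul_le_of_half hk hs
  obtain ⟨K, X₁, C₁, hK, hC₁, hsq⟩ := exists_minor_square hk hs A
  obtain ⟨X₂, C₂, hC₂, hrest⟩ := exists_prime_major_rest hk h2k hs6 hK
  obtain ⟨Y, hY⟩ : ∃ Y : ℝ, Y = ((n + 1 : ℕ) : ℝ) / k - 1 := ⟨_, rfl⟩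
  simp only [← hY] at hsq hrest ⊢
  have hk0 : (0 : ℝ) < k := by exact_mod_cast (show 0 < k by omega)
  have hY1 : 1 ≤ Y := by
    rw [hY, le_sub_iff_add_le, le_div_iff₀ hk0]
    exact_mod_cast (show (1 + 1) * k ≤ n + 1 by omega)
  have hc2 : 2 ≤ ((n + 1 : ℕ) : ℝ) * (1 / (k : ℝ)) := by
    rw [mul_one_div]; linarith
  obtain ⟨C₆, hC₆, hconv⟩ := WaringAsymptotic.exists_weightConv_asymptotic (c := 1 / (k : ℝ))
    (by positivity) hc2
  simp only [mul_one_div] at hconv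
  change ∀ N : ℕ, 1 ≤ N → |_ - repConst k (n + 1) * _| ≤ _ at hconv
  obtain ⟨Z₀, hZ₀⟩ : ∃ Z₀ : ℝ, Z₀ = ∑' q, primeAbs k (n + 1) q := ⟨_, rfl⟩
  have hZ₀0 : 0 ≤ Z₀ := hZ₀ ▸ tsum_nonneg (primeAbs_nonneg k (n + 1))
  obtain ⟨G, hG⟩ : ∃ G, G = repConst k (n + 1) + C₆ := ⟨_, rfl⟩
  have hrc : 0 < repConst k (n + 1) := repConst_pos (by omega) (by omega)
  have hG0 : 0 < G := hG ▸ add_pos hrc hC₆
  obtain ⟨Q₀, hQ₀⟩ :=
    exists_primeSeries_tail (k := k) (s := n + 1) (by omega) hs6 (ε := η / (6 * G)) (by positivity)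
  obtain ⟨K₀, hK₀, hpow⟩ := exists_log_pow_le (A + 1)
  obtain ⟨L₀, hL₀⟩ : ∃ L₀ : ℝ, L₀ = max (6 * C₂ / η) ((Q₀ : ℝ) + 1) := ⟨_, rfl⟩
  obtain ⟨T, hT⟩ : ∃ T : ℕ, T = max (max ⌈Real.exp L₀⌉₊ ⌈6 * Z₀ * C₆ / η⌉₊) (max 2 (max X₁ X₂)) :=
    ⟨_, rfl⟩
  obtain ⟨J₀, hJ₀⟩ : ∃ J₀ : ℝ, J₀ = Real.log ((T + 1) ^ k : ℕ) ^ A := ⟨_, rfl⟩
  have hJ₀0 : 0 ≤ J₀ := hJ₀ ▸ pow_nonneg (Real.log_natCast_nonneg _) A
  obtain ⟨Cp, hCp⟩ : ∃ Cp : ℝ, Cp = 4 / η * (((n + 1 : ℕ) : ℝ) * 6 ^ n * 2 *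
      ((2 * (k : ℝ)) ^ A * K₀)) := ⟨_, rfl⟩
  refine ⟨16 / η ^ 2 * C₁ + Cp + J₀ + 1, by rw [hCp]; positivity, fun X hX2 => ?_⟩
  have hX0 : (0 : ℝ) < X := Nat.cast_pos.2 (by omega)
  have hLX : 0 < Real.log X := Real.log_pos (Nat.one_lt_cast.2 (by omega))
  obtain ⟨S, hS⟩ : ∃ S, S = (Icc 1 X).filter fun N : ℕ => η * (X : ℝ) ^ Y <
    |primeRep k (n + 1) onPrimes N - primeMain k (n + 1) N| := ⟨_, rfl⟩
  rw [← hS]
  have hD0 : 0 ≤ (X : ℝ) / Real.log X ^ A := by positivity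
  rcases Nat.lt_or_ge X ((T + 1) ^ k) with hsmall | hbig
  · have h1 : (S.card : ℝ) ≤ X := by
      refine Nat.cast_le.2 ((card_le_card (hS ▸ filter_subset _ _)).trans ?_)
      rw [Nat.card_Icc, Nat.add_sub_cancel]
    refine h1.trans (le_trans ?_ (mul_le_mul_of_nonneg_right
      (show J₀ ≤ 16 / η ^ 2 * C₁ + Cp + J₀ + 1 by
        have : 0 ≤ Cp := hCp ▸ by positivity
        have : 0 ≤ 16 / η ^ 2 * C₁ := by positivity
        linarith) hD0))
    rw [mul_div_assoc', le_div_iff₀ (by positivity), mul_comm J₀, hJ₀]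
    exact mul_le_mul_of_nonneg_left (pow_le_pow_left₀ hLX.le (Real.log_le_log hX0
      (Nat.cast_le.2 hsmall.le)) A) hX0.le
  obtain ⟨P, hP⟩ : ∃ P, P = rootFloor k X := ⟨_, rfl⟩
  obtain ⟨hTP, hPX, hXP, hlogX⟩ := root_facts (k := k) (T := T + 1) (by omega)
    (by rw [hT]; omega) hbig hP
  have hTX : T ≤ X := by
    have := (Nat.le_self_pow (show k ≠ 0 by omega) (T + 1)).trans hbig
    omega
  have hTmax : max X₁ X₂ ≤ T := hT ▸ le_trans (le_max_right _ _) (le_max_right _ _)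
  obtain ⟨M, hM⟩ : ∃ M, M = (n + 1) * X := ⟨_, rfl⟩
  obtain ⟨m, hm⟩ : ∃ m : ℕ → ℂ,
      m = fun N : ℕ => (∑ h ∈ primeMinor k K X M, primeBox k (n + 1) X M N h) / M := ⟨_, rfl⟩
  obtain ⟨l, hl⟩ : ∃ l, l = Real.log P := ⟨_, rfl⟩
  rw [← hl] at hlogX
  have hPr : (1 : ℝ) ≤ P := Nat.one_le_cast.2 (by omega)
  have hlL : L₀ ≤ l := by
    rw [hl, Real.le_log_iff_exp_le (by linarith)]
    exact (Nat.le_ceil _).trans (Nat.cast_le.2 ((le_trans (hT ▸
      le_trans (le_max_left _ _) (le_max_left _ _) : _ ≤ T) (Nat.le_succ T)).trans hTP))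
  obtain ⟨D, hD⟩ : ∃ D, D = primeRep k (n + 1) Λ := ⟨_, rfl⟩
  obtain ⟨D', hD'⟩ : ∃ D', D' = primeRep k (n + 1) onPrimes := ⟨_, rfl⟩
  -- the major arcs
  have hpt : ∀ N ∈ Icc 1 X, |D N - primeMain k (n + 1) N| ≤ ‖m N‖ + η / 2 * (X : ℝ) ^ Y := by
    intro N hN
    rw [mem_Icc] at hN
    obtain ⟨hl1, hr⟩ := hrest X M N (le_trans (le_trans (le_max_right _ _) hTmax) hTX) hM hN.1 hN.2
    rw [← hP, ← hl] at hl1 hr
    have hm' : (∑ h ∈ primeMinor k K X M, primeBox k (n + 1) X M N h) / (M : ℂ) = m N := by rw [hm]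
    rw [hm', ← hD] at hr
    obtain ⟨J, hJ⟩ : ∃ J, J = weightConv (1 / (k : ℝ)) (n + 1) N := ⟨_, rfl⟩
    obtain ⟨U, hU⟩ : ∃ U, U = ∑' q, primeTerm k (n + 1) N q := ⟨_, rfl⟩
    obtain ⟨U₁, hU₁⟩ : ∃ U₁, U₁ = ∑ q ∈ Icc 1 ⌊l ^ K⌋₊, primeTerm k (n + 1) N q := ⟨_, rfl⟩
    rw [← hJ, ← hU₁] at hr
    have hr' : |D N - J * U₁.re - (m N).re| ≤ η / 6 * (X : ℝ) ^ Y := by
      refine le_trans (le_of_eq ?_) ((Complex.abs_re_le_norm _).trans hr |>.trans ?_)
      · simp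
      · rw [mul_div_assoc', div_le_iff₀ (by linarith)]
        have h2 : 6 * C₂ / η ≤ l := (hL₀ ▸ le_max_left _ _ : _ ≤ L₀).trans hlL
        rw [div_le_iff₀ hη] at h2
        have := mul_le_mul_of_nonneg_right h2 (show 0 ≤ (X : ℝ) ^ Y by positivity)
        linarith
    have hNr : (1 : ℝ) ≤ N := by exact_mod_cast hN.1
    have hNY : (N : ℝ) ^ Y ≤ (X : ℝ) ^ Y :=
      Real.rpow_le_rpow (by linarith) (Nat.cast_le.2 hN.2) (by linarith)
    have hW : (N : ℝ) ^ (Y - 1) ≤ (X : ℝ) ^ (Y - 1) :=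
      Real.rpow_le_rpow (by linarith) (Nat.cast_le.2 hN.2) (by linarith)
    have hWY : (N : ℝ) ^ (Y - 1) ≤ (N : ℝ) ^ Y :=
      Real.rpow_le_rpow_of_exponent_le hNr (by linarith)
    have hJe := hconv N hN.1
    rw [← hJ, show ((n + 1 : ℕ) : ℝ) / k - 2 = Y - 1 by rw [hY]; ring, ← hY] at hJe
    have hJG : |J| ≤ G * (X : ℝ) ^ Y := by
      have h2 := abs_le.1 hJe
      have h3 := mul_le_mul_of_nonneg_left hWY hC₆.le
      have h4 := mul_le_mul_of_nonneg_left hNY hG0.le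
      have h5 : 0 ≤ repConst k (n + 1) * (N : ℝ) ^ Y := by positivity
      rw [hG] at h4 ⊢
      rw [abs_le]
      constructor <;> linarith
    have hQ : Q₀ ≤ ⌊l ^ K⌋₊ := by
      refine Nat.le_floor ?_
      have h1 : (Q₀ : ℝ) + 1 ≤ l := (hL₀ ▸ le_max_right _ _ : _ ≤ L₀).trans hlL
      calc (Q₀ : ℝ) ≤ l := by linarith
        _ ≤ l ^ K := le_self_pow₀ hl1 (by omega)
    have htail := hQ₀ _ hQ N
    rw [← hU₁, ← hU] at htail
    have h2 : |J * U₁.re - J * U.re| ≤ η / 6 * (X : ℝ) ^ Y := by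
      rw [← mul_sub, abs_mul]
      refine (mul_le_mul hJG
        (le_trans (le_of_eq (by simp)) ((Complex.abs_re_le_norm _).trans htail))
        (abs_nonneg _) (by positivity)).trans (le_of_eq ?_)
      field_simp
    have hUre : |U.re| ≤ Z₀ := by
      refine (Complex.abs_re_le_norm U).trans ?_
      rw [hU, hZ₀]
      exact tsum_of_norm_bounded (summable_primeAbs (by omega) hs6).hasSum
        (norm_primeTerm_le k (n + 1) N)
    have h3 : |J * U.re - repConst k (n + 1) * (N : ℝ) ^ Y * U.re| ≤ η / 6 * (X : ℝ) ^ Y := by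
      rw [← sub_mul, abs_mul]
      refine (mul_le_mul (hJe.trans (mul_le_mul_of_nonneg_left hW hC₆.le)) hUre (abs_nonneg _)
        (by positivity)).trans ?_
      have h4 : 6 * Z₀ * C₆ / η ≤ X := (Nat.le_ceil _).trans (Nat.cast_le.2
        ((hT ▸ le_trans (le_max_right _ _) (le_max_left _ _) : _ ≤ T).trans hTX))
      rw [div_le_iff₀ hη] at h4
      have h5 : (X : ℝ) ^ Y = (X : ℝ) ^ (Y - 1) * X := by
        rw [← Real.rpow_add_one hX0.ne', sub_add_cancel]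
      rw [h5]
      have := mul_le_mul_of_nonneg_left h4 (show 0 ≤ (X : ℝ) ^ (Y - 1) by positivity)
      linarith
    have hmainU : primeMain k (n + 1) N = repConst k (n + 1) * (N : ℝ) ^ Y * U.re := by
      rw [primeMain, primeSeries, ← hU, ← hY]
      ring
    rw [hmainU]
    have h6 := abs_le.1 (Complex.abs_re_le_norm (m N))
    rw [abs_le] at hr' h2 h3 ⊢
    constructor <;> linarith
  -- the two sources of exceptions
  have hsub : ∀ N ∈ S, η / 4 * (X : ℝ) ^ Y < ‖m N‖ ∨ η / 4 * (X : ℝ) ^ Y < D N - D' N := by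
    intro N hN
    rw [hS, mem_filter] at hN
    by_contra h
    push Not at h
    have h1 := hpt N hN.1
    have h0 : 0 ≤ D N - D' N := by
      rw [hD, hD', sub_nonneg]
      exact sum_le_sum fun z _ =>
        prod_le_prod (fun i _ => onPrimes_nonneg _) fun i _ => onPrimes_le _
    have h2 := hN.2
    rw [← hD'] at h2
    rw [abs_le] at h1
    rw [lt_abs] at h2
    rcases h2 with h2 | h2 <;> linarith [h.1, h.2]
  obtain ⟨S₁, hS₁⟩ : ∃ S₁, S₁ = S.filter fun N => η / 4 * (X : ℝ) ^ Y < ‖m N‖ := ⟨_, rfl⟩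
  obtain ⟨S₂, hS₂⟩ : ∃ S₂, S₂ = S.filter fun N => η / 4 * (X : ℝ) ^ Y < D N - D' N := ⟨_, rfl⟩
  have hSsub : S ⊆ S₁ ∪ S₂ := fun N hN => by
    rw [hS₁, hS₂, mem_union, mem_filter, mem_filter]
    exact (hsub N hN).imp (fun h => ⟨hN, h⟩) fun h => ⟨hN, h⟩
  have hXY : 0 < η / 4 * (X : ℝ) ^ Y := by positivity
  have hc1 : (S₁.card : ℝ) * (η / 4 * (X : ℝ) ^ Y) ^ 2 ≤
      C₁ * ((X : ℝ) ^ (2 * Y + 1) / Real.log X ^ A) := by
    refine le_trans ?_ (hsq X M (le_trans (le_trans (le_max_left _ _) hTmax) hTX) hM)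
    rw [← nsmul_eq_mul, ← sum_const]
    refine (sum_le_sum fun N hN => ?_).trans (sum_le_sum_of_subset_of_nonneg (fun N hN => ?_)
      fun N _ _ => sq_nonneg _)
    · rw [hS₁, mem_filter, hm] at hN
      exact pow_le_pow_left₀ hXY.le hN.2.le 2
    · rw [hS₁, mem_filter, hS, mem_filter] at hN
      exact hN.1.1
  have hc2' : (S₂.card : ℝ) * (η / 4 * (X : ℝ) ^ Y) ≤
      ((n + 1 : ℕ) : ℝ) * (6 * (P : ℝ)) ^ n * (2 * √(P : ℝ) * l) := by
    refine le_trans ?_ (hl ▸ sum_primeRep_sub_onPrimes_le (X := X) (by omega) (by omega) hXP)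
    rw [← nsmul_eq_mul, ← sum_const]
    refine (sum_le_sum fun N hN => ?_).trans (sum_le_sum_of_subset_of_nonneg (fun N hN => ?_)
      fun N _ _ => ?_)
    · rw [hS₂, mem_filter, hD, hD'] at hN
      exact hN.2.le
    · rw [hS₂, mem_filter, hS, mem_filter] at hN
      exact hN.1.1
    · exact sub_nonneg.2 (sum_le_sum fun z _ =>
        prod_le_prod (fun i _ => onPrimes_nonneg _) fun i _ => onPrimes_le _)
  have h1 : (S₁.card : ℝ) ≤ 16 / η ^ 2 * C₁ * ((X : ℝ) / Real.log X ^ A) := by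
    refine le_of_mul_le_mul_right (hc1.trans (le_of_eq ?_)) (pow_pos hXY 2)
    rw [show 2 * Y + 1 = Y + Y + 1 by ring, Real.rpow_add_one hX0.ne', Real.rpow_add hX0]
    field_simp
    norm_num
  have h2 : (S₂.card : ℝ) ≤ Cp * ((X : ℝ) / Real.log X ^ A) := by
    refine le_of_mul_le_mul_right (hc2'.trans ?_) hXY
    have hl0 : 0 ≤ l := hl ▸ Real.log_natCast_nonneg P
    have hsq : √(P : ℝ) ≤ (2 * (k : ℝ)) ^ A * K₀ * P / (Real.log X ^ A * l) := by
      have hll : 0 < Real.log X ^ A * l := by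
        refine mul_pos (pow_pos hLX A) (hl ▸ Real.log_pos ?_)
        exact Nat.one_lt_cast.2 (by omega)
      rw [le_div_iff₀ hll]
      calc √(P : ℝ) * (Real.log X ^ A * l) ≤ √(P : ℝ) * ((2 * (k : ℝ) * l) ^ A * l) := by
            gcongr
        _ = (2 * (k : ℝ)) ^ A * √(P : ℝ) * l ^ (A + 1) := by ring
        _ ≤ (2 * (k : ℝ)) ^ A * √(P : ℝ) * (K₀ * √(P : ℝ)) :=
            mul_le_mul_of_nonneg_left (hl ▸ hpow P hPr) (by positivity)
        _ = (2 * (k : ℝ)) ^ A * K₀ * (√(P : ℝ) * √(P : ℝ)) := by ring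
        _ = _ := by rw [Real.mul_self_sqrt (by linarith)]
    have hPs : (P : ℝ) ^ (n + 1) ≤ X * (X : ℝ) ^ Y := by
      rw [← Real.rpow_natCast, mul_comm, ← Real.rpow_add_one hX0.ne']
      refine le_trans (le_of_eq ?_) (WaringAsymptotic.pow_root_le (by linarith) hPX)
      congr 1
      rw [hY]
      field_simp
      ring
    have hlpos : 0 < l := hl ▸ Real.log_pos (Nat.one_lt_cast.2 (by omega))
    calc ((n + 1 : ℕ) : ℝ) * (6 * (P : ℝ)) ^ n * (2 * √(P : ℝ) * l)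
        ≤ ((n + 1 : ℕ) : ℝ) * (6 * (P : ℝ)) ^ n *
            (2 * ((2 * (k : ℝ)) ^ A * K₀ * P / (Real.log X ^ A * l)) * l) := by gcongr
      _ = ((n + 1 : ℕ) : ℝ) * 6 ^ n * 2 * ((2 * (k : ℝ)) ^ A * K₀) *
            ((P : ℝ) ^ (n + 1) / Real.log X ^ A) := by
          rw [mul_pow, pow_succ]; field_simp
      _ ≤ ((n + 1 : ℕ) : ℝ) * 6 ^ n * 2 * ((2 * (k : ℝ)) ^ A * K₀) *
            (X * (X : ℝ) ^ Y / Real.log X ^ A) := by gcongr
      _ = _ := by rw [hCp]; field_simp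
  have h3 : (S.card : ℝ) ≤ S₁.card + S₂.card := by
    exact_mod_cast (card_le_card hSsub).trans (card_union_le _ _)
  refine h3.trans ((add_le_add h1 h2).trans ?_)
  rw [← add_mul]
  exact mul_le_mul_of_nonneg_right (by linarith) hD0

/-- **The exceptions to the relative bound.** -/
theorem exists_relative_exceptions {k s : ℕ} (hk : 2 ≤ k) (hs : k * (k + 1) + 4 ≤ 2 * s)
    (hs6 : 6 ≤ s) (A : ℕ) {η : ℝ} (hη : 0 < η) : ∃ C : ℝ, 0 < C ∧ ∀ X : ℕ, 2 ≤ X →
      (((Icc 1 X).filter fun N : ℕ => η * (N : ℝ) ^ ((s : ℝ) / k - 1) <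
          |primeRep k s onPrimes N - primeMain k s N|).card : ℝ) ≤
        C * (X / Real.log X ^ A) := by
  classical
  obtain ⟨h2k, -⟩ := two_mul_le_of_half hk hs
  obtain ⟨Y, hY⟩ : ∃ Y : ℝ, Y = (s : ℝ) / k - 1 := ⟨_, rfl⟩
  have hY0 : 0 ≤ Y := by
    rw [hY, sub_nonneg, one_le_div (by exact_mod_cast (show 0 < k by omega))]
    exact_mod_cast (show k ≤ s by omega)
  obtain ⟨C, hC, h⟩ := exists_uniform_exceptions hk hs hs6 A (η := η / 3 ^ Y) (by positivity)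
  simp only [← hY] at h ⊢
  obtain ⟨X₀, hX₀⟩ : ∃ X₀ : ℕ, X₀ = max 4 ⌈Real.exp (3 * A * Real.log 3)⌉₊ := ⟨_, rfl⟩
  obtain ⟨C', hC'⟩ : ∃ C', C' = max (4 * C) (Real.log X₀ ^ A) := ⟨_, rfl⟩
  have hC'0 : 0 < C' := hC' ▸ lt_of_lt_of_le (by positivity) (le_max_left _ _)
  refine ⟨C', hC'0, fun X => ?_⟩
  induction X using Nat.strong_induction_on with
  | h X ih =>
    intro hX
    have hX0 : (0 : ℝ) < X := Nat.cast_pos.2 (by omega)
    obtain ⟨L, hL⟩ : ∃ L, L = Real.log X := ⟨_, rfl⟩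
    have hL0 : 0 < L := hL ▸ Real.log_pos (Nat.one_lt_cast.2 (by omega))
    rw [← hL]
    have hXA : 0 ≤ (X : ℝ) / L ^ A := by positivity
    rcases Nat.lt_or_ge X X₀ with hlt | hge
    · refine (Nat.cast_le.2 (card_filter_le _ _)).trans ?_
      rw [Nat.card_Icc, Nat.add_sub_cancel]
      refine le_trans ?_ (mul_le_mul_of_nonneg_right (hC' ▸ le_max_right (4 * C) _) hXA)
      rw [mul_div_assoc', le_div_iff₀ (by positivity), mul_comm (_ ^ A) (X : ℝ)]
      exact mul_le_mul_of_nonneg_left (pow_le_pow_left₀ hL0.le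
        (hL ▸ Real.log_le_log hX0 (Nat.cast_le.2 hlt.le)) A) hX0.le
    have hX4 : 4 ≤ X := le_trans (hX₀ ▸ le_max_left _ _) hge
    obtain ⟨a, ha⟩ : ∃ a, a = Real.log 3 := ⟨_, rfl⟩
    have ha0 : 0 < a := ha ▸ Real.log_pos (by norm_num)
    have hLA : 3 * A * a ≤ L := by
      rw [hL, ha, Real.le_log_iff_exp_le hX0]
      exact (Nat.le_ceil _).trans (Nat.cast_le.2 (le_trans (hX₀ ▸ le_max_right _ _) hge))
    obtain ⟨H, hH⟩ : ∃ H, H = X / 2 := ⟨_, rfl⟩
    have hH3 : (X : ℝ) ≤ 3 * (H : ℝ) := by exact_mod_cast (show X ≤ 3 * H by omega)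
    have hlogH : L - a ≤ Real.log H := by
      have hH0 : (0 : ℝ) < H := Nat.cast_pos.2 (by omega)
      have := Real.log_le_log hX0 hH3
      rw [Real.log_mul three_ne_zero hH0.ne'] at this
      linarith
    have haL : a ≤ L ∧ 2 / 3 * L ^ A ≤ Real.log H ^ A := by
      have haL : a ≤ L := ha ▸ hL ▸ Real.log_le_log (by norm_num)
        (by exact_mod_cast (show 3 ≤ X by omega))
      refine ⟨haL, le_trans ?_ (pow_le_pow_left₀ (by linarith) hlogH A)⟩
      have hb := one_add_mul_le_pow (show -2 ≤ -(a / L) by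
        have : a / L ≤ 1 := (div_le_one hL0).2 haL
        linarith) A
      have h5 : (A : ℝ) * (a / L) ≤ 1 / 3 := by
        rw [mul_div_assoc', div_le_iff₀ hL0]
        linarith
      calc 2 / 3 * L ^ A ≤ (1 + -(a / L)) ^ A * L ^ A :=
            mul_le_mul_of_nonneg_right (by linarith) (by positivity)
        _ = _ := by
            rw [← mul_pow]
            congr 1
            field_simp
            ring
    obtain ⟨p, hp⟩ : ∃ p : ℕ → Prop, p = fun N : ℕ => η * (N : ℝ) ^ Y <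
      |primeRep k s onPrimes N - primeMain k s N| := ⟨_, rfl⟩
    have hb := h X hX
    rw [← hL] at hb
    have hsub : (Icc 1 X).filter p ⊆ (Icc 1 H).filter p ∪ (Icc 1 X).filter
        (fun N : ℕ => η / 3 ^ Y * (X : ℝ) ^ Y < |primeRep k s onPrimes N - primeMain k s N|) := by
      intro N hN
      rw [mem_union, mem_filter, mem_filter]
      rw [mem_filter, mem_Icc] at hN
      rcases Nat.lt_or_ge H N with hHN | hHN
      · refine Or.inr ⟨mem_Icc.2 hN.1, lt_of_le_of_lt ?_ (by simpa [hp] using hN.2)⟩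
        rw [div_mul_eq_mul_div, mul_div_assoc, ← Real.div_rpow hX0.le (by norm_num)]
        refine mul_le_mul_of_nonneg_left (Real.rpow_le_rpow (by positivity) ?_ hY0) hη.le
        rw [div_le_iff₀ (by norm_num : (0 : ℝ) < 3)]
        exact_mod_cast (show X ≤ N * 3 by omega)
      · exact Or.inl ⟨mem_Icc.2 ⟨hN.1.1, hHN⟩, hN.2⟩
    have hcard : (((Icc 1 X).filter p).card : ℝ) ≤
        C' * (H / Real.log H ^ A) + C * (X / L ^ A) := by
      refine (Nat.cast_le.2 ((card_le_card hsub).trans (card_union_le _ _))).trans ?_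
      rw [Nat.cast_add]
      refine add_le_add ?_ hb
      have := ih H (by omega) (by omega)
      simpa [hp] using this
    subst hp
    refine hcard.trans ?_
    have h6 : (H : ℝ) / Real.log H ^ A ≤ 3 / 4 * ((X : ℝ) / L ^ A) := by
      refine (div_le_div₀ (by positivity) (show (H : ℝ) ≤ X / 2 from ?_) (by positivity)
        haL.2).trans (le_of_eq ?_)
      · rw [le_div_iff₀ two_pos]
        exact_mod_cast (show H * 2 ≤ X by omega)
      · field_simp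
        ring
    have h7 := mul_le_mul_of_nonneg_left h6 hC'0.le
    have h8 := mul_le_mul_of_nonneg_right (hC' ▸ le_max_left (4 * C) _ : 4 * C ≤ C') hXA
    linarith

/-- **Almost all `N` have the expected number of prime representations.** -/
theorem exists_few_representations {k s : ℕ} (hk : 2 ≤ k) (hs : k * (k + 1) + 4 ≤ 2 * s)
    (hs6 : 6 ≤ s) : ∃ c : ℝ, 0 < c ∧ ∀ A : ℕ, ∃ C : ℝ, 0 < C ∧ ∀ X : ℕ, 2 ≤ X →
      (((Icc 1 X).filter fun N : ℕ => N ≡ s [MOD classModulus k] ∧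
          (((Fintype.piFinset fun _ : Fin s => Icc 1 N).filter
            fun z => (∀ i, (z i).Prime) ∧ ∑ i, z i ^ k = N).card : ℝ) * Real.log N ^ s <
            c * (N : ℝ) ^ ((s : ℝ) / k - 1)).card : ℝ) ≤ C * (X / Real.log X ^ A) := by
  classical
  obtain ⟨c₁, hc₁, hser⟩ :=
    exists_primeSeries_pos_half (k := k) (by omega) hs6 ((two_mul_le_of_half hk hs).2 hs6)
  have hrc := repConst_pos (k := k) (s := s) (by omega) (by omega)
  refine ⟨c₁ * repConst k s / 2, by positivity, fun A => ?_⟩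
  obtain ⟨C, hC, h⟩ := exists_relative_exceptions hk hs hs6 A
    (η := c₁ * repConst k s / 4) (by positivity)
  refine ⟨C, hC, fun X hX => le_trans (Nat.cast_le.2 (card_le_card fun N hN => ?_)) (h X hX)⟩
  rw [mem_filter] at hN ⊢
  obtain ⟨hN1, hmod, hlt⟩ := hN
  refine ⟨hN1, ?_⟩
  have hN0 : (0 : ℝ) < (N : ℝ) ^ ((s : ℝ) / k - 1) :=
    Real.rpow_pos_of_pos (Nat.cast_pos.2 (mem_Icc.1 hN1).1) _
  have hrep : primeRep k s onPrimes N ≤ (((Fintype.piFinset fun _ : Fin s => Icc 1 N).filter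
      fun z => (∀ i, (z i).Prime) ∧ ∑ i, z i ^ k = N).card : ℝ) * Real.log N ^ s := by
    rw [primeRep, ← nsmul_eq_mul, ← sum_filter_add_sum_filter_not _ (fun z => ∀ i, (z i).Prime),
      filter_filter]
    have h0 : ∀ z ∈ ((Fintype.piFinset fun _ : Fin s => Icc 1 N).filter
        fun z => ∑ i, z i ^ k = N).filter (fun z => ¬ ∀ i, (z i).Prime),
        ∏ i, onPrimes (z i) = 0 := fun z hz => by
      obtain ⟨i, hi⟩ := not_forall.1 (mem_filter.1 hz).2
      exact prod_eq_zero (mem_univ i) (if_neg hi)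
    rw [sum_eq_zero h0, add_zero]
    simp only [and_comm]
    refine sum_le_card_nsmul _ _ _ fun z hz => ?_
    rw [mem_filter, Fintype.mem_piFinset] at hz
    calc ∏ i, onPrimes (z i) ≤ ∏ _i : Fin s, Real.log N :=
          prod_le_prod (fun i _ => onPrimes_nonneg _) fun i _ =>
            (onPrimes_le _).trans (vonMangoldt_le_log.trans (Real.log_le_log
              (by exact_mod_cast (mem_Icc.1 (hz.1 i)).1) (Nat.cast_le.2 (mem_Icc.1 (hz.1 i)).2)))
      _ = _ := by simp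
  have hmain : c₁ * repConst k s * (N : ℝ) ^ ((s : ℝ) / k - 1) ≤ primeMain k s N :=
    mul_le_mul_of_nonneg_right (mul_le_mul_of_nonneg_right (hser N hmod) hrc.le) hN0.le
  refine lt_of_lt_of_le ?_ ((neg_le_abs _))
  have := mul_pos (mul_pos hc₁ hrc) hN0
  linarith

end FA.WaringGoldbachAlmostAll
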